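import Mathlib
import Fermat.Agent.GalRep.Geom
import Fermat.Agent.GalRep.TwrIso
import Fermat.Agent.S41.DegPoly

/-!
# TRACK 7 (NODE), package ALG35 (helper29): the INTERFACE between NODE and the algebra

Level `N * q`, `q` prime, `q ∤ N`; `F = modularFunctionFieldBar (N * q)`; exponent `n`, `q ∤ n`.
Everything is stated with the notions of `GalRep/Geom.lean` (Kummer generators `KM_IsKum`,
trivial generators `GR_IsTriv`, the Galois action `GR_gal`, the multiplicative Hecke operator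
`H.t` of a `GR_HeckeES (N * q) q`, i.e. `U_q`, and Kummer characters `GR_KChar`).

* `S35A_UniK N q` : **(UNI-K)** `(τ − 1)² = 0` on Kummer classes, `τ` in an inertia group at `q`;
* `S35A_BesK N q` : **(BES-K)** `(σ − q U_q)(σ − U_q) = 0` on the `q`-new Kummer classes, for EVERY
  Frobenius lift `σ` at `q`.  A Kummer generator `f` is `q`-new if its Kummer character is the
  reduction of a class `z ∈ S41D_B N q = ker trA ⊓ ker trB ⊆ parInt (N * q)`.

* `S35A_Frob4K N q` : **(FROB4-K)** `(σ² − q²)(σ² − 1) = 0` on the `q`-new Kummer classes, for every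
  Frobenius lift `σ` at `q` — the WEAKEST form that ALG35 needs (no `U_q`, no `w_q`); it follows from
  (BES-K) and `U_q² = 1` on the new part, and also from helper12's D-step
  (`(σ − U_q) B ⊆ K'`, `σ² = q²` on `K'`, `U_q² = 1` on `B`).

ALG34 consumes (UNI-K); ALG35 consumes (FROB4-K) (or (BES-K)).
-/

set_option autoImplicit false

open ModularCurve AlgebraicCurve CongruenceSubgroup

namespace Fermat.Agent.S35

open Fermat.Agent.GalRep Fermat.Agent.S16 Fermat.Agent.S41 Fermat.Agent.S24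

/-- **(UNI-K)**: inertia at `q ∥ N q` is unipotent on the Kummer classes of exponent `n`, `q ∤ n`:
`τ²f · (τ f)⁻² · f` is a trivial Kummer generator. -/
def S35A_UniK (N q : ℕ) [NeZero (N * q)] : Prop :=
  ∀ (n : ℕ), 0 < n → ¬ q ∣ n →
    ∀ P : ValuationSubring (AlgebraicClosure ℚ), P.LiesOverPrime q →
      ∀ τ ∈ P.inertiaSubgroupIn ℚ, ∀ f : ↥(modularFunctionFieldBar (N * q)),
        KM_IsKum (AlgebraicClosure ℚ) ↥(modularFunctionFieldBar (N * q)) n f →
        GR_IsTriv (N * q) n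
          (GR_gal (N * q) τ (GR_gal (N * q) τ f) * ((GR_gal (N * q) τ f) ^ 2)⁻¹ * f)

/-- **(BES-K)**: the bad-prime Eichler–Shimura relation `(σ − q U_q)(σ − U_q) = 0` on the `q`-new
Kummer classes of exponent `n`, `q ∤ n`, for every Frobenius lift `σ` at `q`:
`σ²f · (U_q σ f)^{−(1+q)} · (U_q U_q f)^q` is a trivial Kummer generator. -/
def S35A_BesK (N q : ℕ) [NeZero N] [NeZero q] [NeZero (N * q)] [Fact q.Prime] : Prop :=
  ∀ (n : ℕ), 0 < n → ¬ q ∣ n →
    ∀ (H : GR_HeckeES (N * q) q) (σ : GQ), GR_IsFrob q σ →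
      ∀ (f : ↥(modularFunctionFieldBar (N * q))) (z : ↥(parInt (N * q))),
        z ∈ S41D_B N q →
        KM_IsKum (AlgebraicClosure ℚ) ↥(modularFunctionFieldBar (N * q)) n f →
        GR_KChar (N * q) n f
          ((GRT_red (N * q) n z : ↥(GRT_X (N * q) n)) : Additive (Gamma0 (N * q)) →+ ZMod n) →
        GR_IsTriv (N * q) n
          (GR_gal (N * q) σ (GR_gal (N * q) σ f)
            * ((H.t (GR_gal (N * q) σ f)) ^ (1 + q))⁻¹ * (H.t (H.t f)) ^ q)

/-- **(FROB4-K)**: `(σ² − q²)(σ² − 1) = 0` on the `q`-new Kummer classes of exponent `n`, `q ∤ n`, for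
every Frobenius lift `σ` at `q`:  `σ⁴f · (σ²f)^{−(1+q²)} · f^{q²}` is a trivial Kummer generator. -/
def S35A_Frob4K (N q : ℕ) [NeZero N] [NeZero q] [NeZero (N * q)] [Fact q.Prime] : Prop :=
  ∀ (n : ℕ), 0 < n → ¬ q ∣ n →
    ∀ (σ : GQ), GR_IsFrob q σ →
      ∀ (f : ↥(modularFunctionFieldBar (N * q))) (z : ↥(parInt (N * q))),
        z ∈ S41D_B N q →
        KM_IsKum (AlgebraicClosure ℚ) ↥(modularFunctionFieldBar (N * q)) n f →
        GR_KChar (N * q) n f
          ((GRT_red (N * q) n z : ↥(GRT_X (N * q) n)) : Additive (Gamma0 (N * q)) →+ ZMod n) →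
        GR_IsTriv (N * q) n
          (GR_gal (N * q) σ (GR_gal (N * q) σ (GR_gal (N * q) σ (GR_gal (N * q) σ f)))
            * ((GR_gal (N * q) σ (GR_gal (N * q) σ f)) ^ (1 + q ^ 2))⁻¹ * f ^ (q ^ 2))

end Fermat.Agent.S35
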