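import Mathlib
import Fermat.Agent.GalRep.HeckeKum
import Fermat.Agent.GalRep.HeckeMer
import Fermat.Agent.GalRep.TwrIso
import Fermat.Agent.S41.DegId
import Fermat.Agent.S24.Conj

/-!
# TRACK 7 (NODE), package BRIDGE (helper8), part A: norm along `α` ↔ transfer `trA`

Level `N q`, `q` prime, `q ∤ N`.  `α = heckeAlphaBar : F_N → F_{Nq}` (the inclusion),
`N_α = S35B_NA N q : F_{Nq} → F_N` the norm for the algebra structure `α.toRingHom.toAlgebra`.

* `S35B_ev_alpha`  : `ev_{Nq} (α f) = ev_N f`;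
* `S35B_ev_NA`     : `ev_N (N_α x) = ∏_i (ev_{Nq} x) ∘ s_i`, `s_i = S41D_sA h i` the transversal of
                     `Γ₀(N q) \ Γ₀(N)` (norm = product over the `q + 1` embeddings into `Mer`);
* `S35B_prod_char` : multiplier formula for a product of translates (two levels);
* `S35B_NA_char`   : `KChar x = red z  ⇒  KChar (N_α x) = red (trA z)`;
* `S35B_NA_triv`   : `trA z = 0`, `x` a Kummer generator with `KChar x = red z`
                     `⇒ GR_IsTriv N n (N_α x)`   (KAPPA.inj at level `N`).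
-/

set_option autoImplicit false
set_option synthInstance.maxHeartbeats 400000
set_option maxHeartbeats 1000000
set_option linter.style.haveILetI false
set_option linter.unusedSectionVars false
open UpperHalfPlane hiding I
open scoped MatrixGroups Manifold ModularForm
open CongruenceSubgroup Matrix.SpecialLinearGroup ModularCurve AlgebraicCurve IntermediateField
open P2MW.S_ModularForm_heckeT_slash_eq_self_of_mem_Gamma0.ModularForm.HeckeSlashInvariance
open ModularForm

noncomputable section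

namespace Fermat.Agent.S35

open Fermat.Agent.S24 Fermat.Agent.S16 Fermat.Agent.GalRep Fermat.Agent.S41 Fermat.Agent.S20

variable (N q : ℕ) [NeZero N] [NeZero q]

/-- `ev_{Nq} ∘ α = ev_N`. -/
theorem S35B_ev_alpha (f : ↥(modularFunctionFieldBar N)) :
    ev (N * q) (heckeAlphaBar (AlgebraicClosure ℚ) N q f) = ev N f := by
  have key : (ev (N * q)).comp
      (heckeAlphaBar (AlgebraicClosure ℚ) N q : ↥(modularFunctionFieldBar N) →+*
        ↥(modularFunctionFieldBar (N * q))) = ev N := by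
    apply ringHom_ext_gen N
    · intro a
      simp only [RingHom.comp_apply, RingHom.coe_coe, AlgHom.commutes]
      rw [(isEv_ev (N * q)).const, (isEv_ev N).const]
    · intro d _ hd
      simp only [RingHom.comp_apply, RingHom.coe_coe]
      rw [GRHF_alpha_jBar, (isEv_ev (N * q)).gen, (isEv_ev N).gen]
  exact congrArg (fun φ : ↥(modularFunctionFieldBar N) →+* Mer => φ f) key

/-- the norm `F_{Nq} → F_N` along `α` (the inclusion). -/
def S35B_NA (x : ↥(modularFunctionFieldBar (N * q))) : ↥(modularFunctionFieldBar N) :=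
  @Algebra.norm ↥(modularFunctionFieldBar N) ↥(modularFunctionFieldBar (N * q)) _ _
    (heckeAlphaBar (AlgebraicClosure ℚ) N q).toRingHom.toAlgebra x

/-- the norm `F_{Nq} → F_N` along `β` (`f(t) ↦ f(t^q)`). -/
def S35B_NB (x : ↥(modularFunctionFieldBar (N * q))) : ↥(modularFunctionFieldBar N) :=
  @Algebra.norm ↥(modularFunctionFieldBar N) ↥(modularFunctionFieldBar (N * q)) _ _
    (heckeBetaBar (AlgebraicClosure ℚ) N q).toRingHom.toAlgebra x

theorem S35B_finrank_alpha (hq : q.Prime) (hqN : ¬ q ∣ N) :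
    @Module.finrank ↥(modularFunctionFieldBar N) ↥(modularFunctionFieldBar (N * q)) _ _
        ((heckeAlphaBar (AlgebraicClosure ℚ) N q).toRingHom.toAlgebra.toModule) = q + 1 := by
  have h1 := GRHF_finrank_betaRange N q hq
  rw [if_neg hqN, GRHF_finrank_betaRange_eq] at h1
  rw [← h1]
  let _ : Algebra ↥(modularFunctionFieldBar N) ↥(modularFunctionFieldBar (N * q)) :=
    (heckeAlphaBar (AlgebraicClosure ℚ) N q).toRingHom.toAlgebra
  exact Algebra.finrank_eq_of_equiv_equiv
    (AlgEquiv.ofInjectiveField (heckeAlphaBar (AlgebraicClosure ℚ) N q)).toRingEquiv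
    (RingEquiv.refl _) rfl

theorem S35B_finiteDimensional_alpha (hq : q.Prime) (hqN : ¬ q ∣ N) :
    @FiniteDimensional ↥(modularFunctionFieldBar N) ↥(modularFunctionFieldBar (N * q)) _ _
      (@Algebra.toModule _ _ _ _ (heckeAlphaBar (AlgebraicClosure ℚ) N q).toRingHom.toAlgebra) := by
  let _ : Algebra ↥(modularFunctionFieldBar N) ↥(modularFunctionFieldBar (N * q)) :=
    (heckeAlphaBar (AlgebraicClosure ℚ) N q).toRingHom.toAlgebra
  apply Module.finite_of_finrank_pos
  rw [S35B_finrank_alpha N q hq hqN]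
  exact Nat.succ_pos q

variable {N q}

/-- **norm formula along `α` in `Mer`**: `ev_N (N_α x) = ∏_i (ev_{Nq} x) ∘ s_i`, `s_i` the
transversal `S41D_sA` of `Γ₀(N q) \ Γ₀(N)`. -/
theorem S35B_ev_NA [Fact q.Prime] (hqN : ¬ q ∣ N) {a b : ℤ} (h : (q : ℤ) * a - N * b = 1)
    (x : ↥(modularFunctionFieldBar (N * q))) :
    ev N (S35B_NA N q x)
      = ∏ i : OnePoint (ZMod q),
          merComp ((S41D_sA h i : Gamma0 N) : SL(2, ℤ)) (ev (N * q) x) := by
  classical
  have hq : q.Prime := Fact.out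
  letI algF : Algebra ↥(modularFunctionFieldBar N) ↥(modularFunctionFieldBar (N * q)) :=
    (heckeAlphaBar (AlgebraicClosure ℚ) N q).toRingHom.toAlgebra
  letI algM : Algebra ↥(modularFunctionFieldBar N) Mer := (ev N).toAlgebra
  haveI fd : FiniteDimensional ↥(modularFunctionFieldBar N) ↥(modularFunctionFieldBar (N * q)) :=
    S35B_finiteDimensional_alpha N q hq hqN
  let σ : OnePoint (ZMod q) → (↥(modularFunctionFieldBar (N * q)) →ₐ[↥(modularFunctionFieldBar N)]
      Mer) := fun i =>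
    { (merComp ((S41D_sA h i : Gamma0 N) : SL(2, ℤ))).comp (ev (N * q)) with
      commutes' := fun f => by
        show merComp ((S41D_sA h i : Gamma0 N) : SL(2, ℤ))
          (ev (N * q) (heckeAlphaBar (AlgebraicClosure ℚ) N q f)) = ev N f
        rw [S35B_ev_alpha, S24_hinv N (ev N) (isEv_ev N) _ (S41D_sA h i).2] }
  have hσ : Function.Injective σ := by
    intro i k hik
    have h1 : conjEv (N * q) (ev (N * q)) ((S41D_sA h i : Gamma0 N) : SL(2, ℤ))
        = conjEv (N * q) (ev (N * q)) ((S41D_sA h k : Gamma0 N) : SL(2, ℤ)) := by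
      ext f
      exact congrArg (fun φ : ↥(modularFunctionFieldBar (N * q)) →ₐ[↥(modularFunctionFieldBar N)]
        Mer => φ f) hik
    have h2 := conjEv_eq_imp_mem_Gamma0 (N * q) (ev (N * q)) (isEv_ev (N * q)) _ _ h1
    have h3 : S41D_sA h k * (S41D_sA h i)⁻¹ ∈ (S41A_res N q).range :=
      ⟨⟨_, h2⟩, Subtype.ext rfl⟩
    have h4 : ((S41D_sA h i)⁻¹)⁻¹ * (S41D_sA h k)⁻¹ ∈ (S41A_res N q).range := by
      have := inv_mem h3
      rw [mul_inv_rev, inv_inv] at this
      rw [inv_inv]
      exact this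
    exact (S41D_sA_bijective h).1 (QuotientGroup.eq.mpr h4)
  have hcard : Module.finrank ↥(modularFunctionFieldBar N) ↥(modularFunctionFieldBar (N * q))
      ≤ Fintype.card (OnePoint (ZMod q)) := by
    rw [S35B_finrank_alpha N q hq hqN, S41D_card_onePoint]
  exact S24_norm_eq_prod_of_injective σ hσ hcard x


/-! ### the multiplier formula for a product of translates -/

/-- core computation (two levels): a relation `b γ = g' b'` with `g' ∈ Γ₀(N')` turns
`(y ∘ b) ∘ γ` into `ζ^{χ g'} · (y ∘ b')`. -/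
theorem S35B_merComp_coset {N' n : ℕ} {y : Mer} {χ : Additive (Gamma0 N') →+ ZMod n}
    (hy : KM_HasChar N' n y χ) {b b' : GL (Fin 2) ℝ} (hb : 0 < b.det.val) (hb' : 0 < b'.det.val)
    (γ : SL(2, ℤ)) (g' : Gamma0 N')
    (hmul : b * mapGL ℝ γ = mapGL ℝ (g' : SL(2, ℤ)) * b') :
    merComp γ (GRHM_merComp b y)
      = algebraMap ℂ Mer (KM_zeta n (χ (Additive.ofMul g'))) * GRHM_merComp b' y := by
  rw [← GRHM_merComp_mapGL, ← GRHM_merComp_mul_apply hb (GRHM_det_mapGL_pos _), hmul,
    GRHM_merComp_mul_apply (GRHM_det_mapGL_pos _) hb', GRHM_merComp_mapGL, hy g', map_mul,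
    GRHM_merComp_const]

/-- **multiplier formula** for `∏_i y ∘ b_i`. -/
theorem S35B_prod_char {N' n : ℕ} (hn : 0 < n) {y : Mer} {χ : Additive (Gamma0 N') →+ ZMod n}
    (hy : KM_HasChar N' n y χ) {ι : Type*} [Fintype ι] (b : ι → GL (Fin 2) ℝ)
    (hb : ∀ i, 0 < (b i).det.val) (γ : SL(2, ℤ)) (σ : Equiv.Perm ι) (g' : ι → Gamma0 N')
    (hmul : ∀ i, b i * mapGL ℝ γ = mapGL ℝ (g' i : SL(2, ℤ)) * b (σ i)) :
    merComp γ (∏ i, GRHM_merComp (b i) y)
      = algebraMap ℂ Mer (KM_zeta n (∑ i, χ (Additive.ofMul (g' i))))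
        * ∏ i, GRHM_merComp (b i) y := by
  rw [map_prod]
  have h1 : ∀ i : ι, merComp γ (GRHM_merComp (b i) y)
      = algebraMap ℂ Mer (KM_zeta n (χ (Additive.ofMul (g' i))))
        * GRHM_merComp (b (σ i)) y := fun i =>
    S35B_merComp_coset hy (hb i) (hb (σ i)) γ (g' i) (hmul i)
  rw [Finset.prod_congr rfl (fun i _ => h1 i), Finset.prod_mul_distrib, GRHM_zeta_sum hn,
    map_prod]
  congr 1
  exact Equiv.prod_comp σ (fun i => GRHM_merComp (b i) y)

/-! ### the Kummer character of `N_α x` is the transfer `trA` -/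

/-- **BRIDGE (α)**: if the Kummer character of `x ∈ F_{Nq}` is the reduction of `z`, then the
Kummer character of the norm `N_α x ∈ F_N` is the reduction of `trA z`. -/
theorem S35B_NA_char [Fact q.Prime] (hqN : ¬ q ∣ N) (n : ℕ) (hn : 0 < n)
    (x : ↥(modularFunctionFieldBar (N * q))) (z : ↥(parInt (N * q)))
    (hx : GR_KChar (N * q) n x
      ((GRT_red (N * q) n z : ↥(GRT_X (N * q) n)) : Additive (Gamma0 (N * q)) →+ ZMod n)) :
    GR_KChar N n (S35B_NA N q x)
      ((GRT_red N n (S41D_trA N q z) : ↥(GRT_X N n)) : Additive (Gamma0 N) →+ ZMod n) := by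
  have hq : q.Prime := Fact.out
  obtain ⟨a, b, h⟩ := S41D_exists_ab hq hqN
  obtain ⟨y, hy, hchar⟩ := hx
  refine ⟨∏ i : OnePoint (ZMod q), merComp ((S41D_sA h i : Gamma0 N) : SL(2, ℤ)) y, ?_, ?_⟩
  · rw [S35B_ev_NA hqN h, ← Finset.prod_pow]
    refine Finset.prod_congr rfl fun i _ => ?_
    rw [← map_pow, hy]
  · intro γ
    obtain ⟨σ, hh, hmul⟩ := S41D_exists_data (S41A_res N q).range
      (fun i => (S41D_sA h i)⁻¹) (S41D_sA_bijective h) γ
    choose h' hh' using fun i => (hh i).2
    have hmul' : ∀ i, γ * (S41D_sA h (σ i))⁻¹ = (S41D_sA h i)⁻¹ * S41A_res N q (h' i) :=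
      fun i => by rw [hh']; exact hmul i
    have hsγ : ∀ i, S41D_sA h i * γ = S41A_res N q (h' i) * S41D_sA h (σ i) := by
      intro i
      have := hmul' i
      calc S41D_sA h i * γ
          = S41D_sA h i * (γ * (S41D_sA h (σ i))⁻¹) * S41D_sA h (σ i) := by group
        _ = S41A_res N q (h' i) * S41D_sA h (σ i) := by rw [this]; group
    have key := S35B_prod_char hn hchar
      (fun i : OnePoint (ZMod q) => mapGL ℝ ((S41D_sA h i : Gamma0 N) : SL(2, ℤ)))
      (fun i => GRHM_det_mapGL_pos _) (γ : SL(2, ℤ)) σ h' (fun i => by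
        rw [← map_mul, ← map_mul]
        congr 1
        have := congrArg (fun g : Gamma0 N => (g : SL(2, ℤ))) (hsγ i)
        simpa using this)
    simp only [GRHM_merComp_mapGL] at key
    rw [key]
    congr 2
    rw [GRT_red_apply, S41D_trA_apply N q z (fun i => (S41D_sA h i)⁻¹) (S41D_sA_bijective h) γ σ
      h' hmul', Int.cast_sum]
    rfl


/-- the norm `N_α` of a Kummer generator is a Kummer generator. -/
theorem S35B_NA_kum [Fact q.Prime] (hqN : ¬ q ∣ N) (n : ℕ)
    {x : ↥(modularFunctionFieldBar (N * q))}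
    (hx : KM_IsKum (AlgebraicClosure ℚ) ↥(modularFunctionFieldBar (N * q)) n x) :
    KM_IsKum (AlgebraicClosure ℚ) ↥(modularFunctionFieldBar N) n (S35B_NA N q x) :=
  GRNK_norm_of_algHom (heckeAlphaBar (AlgebraicClosure ℚ) N q)
    (S35B_finiteDimensional_alpha N q Fact.out hqN) n hx

/-- **BRIDGE (α), triviality**: if the Kummer character of the Kummer generator `x ∈ F_{Nq}` is
the reduction of `z` with `trA z = 0`, then `N_α x` is a trivial Kummer generator of `F_N`. -/
theorem S35B_NA_triv [Fact q.Prime] (hqN : ¬ q ∣ N) (hK : GR_KappaStmt N) (n : ℕ) (hn : 0 < n)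
    (x : ↥(modularFunctionFieldBar (N * q))) (z : ↥(parInt (N * q)))
    (hz : S41D_trA N q z = 0)
    (hkum : KM_IsKum (AlgebraicClosure ℚ) ↥(modularFunctionFieldBar (N * q)) n x)
    (hx : GR_KChar (N * q) n x
      ((GRT_red (N * q) n z : ↥(GRT_X (N * q) n)) : Additive (Gamma0 (N * q)) →+ ZMod n)) :
    GR_IsTriv N n (S35B_NA N q x) := by
  have h1 := S35B_NA_char hqN n hn x z hx
  rw [hz, map_zero] at h1
  exact hK.inj n hn _ (S35B_NA_kum hqN n hkum) h1

end Fermat.Agent.S35
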