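import Mathlib
import Fermat.Agent.S35.BridgeA
import Fermat.Agent.S41.UNewMat
import Fermat.Agent.S41.DegPoly

/-!
# TRACK 7 (NODE), package BRIDGE (helper8), part B: norm along `β` ↔ transfer `trB`, final form

Level `N q`, `q` prime, `q ∤ N`.  `β = heckeBetaBar : F_N → F_{Nq}` (`f(t) ↦ f(t^q)`),
`N_β = S35B_NB N q : F_{Nq} → F_N` the norm for the algebra structure `β.toRingHom.toAlgebra`
(the norm of `GRHK_beta_norm`), `D = heckeDiagMatrix q = diag(q,1)`.

* `S35B_ev_beta`   : `ev_{Nq} (β f) = (ev_N f) ∘ D`;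
* `S35B_ev_NB`     : `ev_N (N_β x) = ∏_i (ev_{Nq} x) ∘ (D⁻¹ s_i)`, `s_i = S41D_sB h i` the transversal
                     of `D Γ₀(N q) D⁻¹ \ Γ₀(N)`  (distinctness of the embeddings: `j(z/q) = j_q(S z)`
                     and `S24_mem_Gamma0_of_jFun_eq`);
* `S35B_NB_char`   : `KChar x = red z  ⇒  KChar (N_β x) = red (trB z)`;
* `S35B_NB_triv`   : `trB z = 0`, `x` a Kummer generator with `KChar x = red z`
                     `⇒ GR_IsTriv N n (N_β x)`;
* `S35B_bridge`    : **BRIDGE**: `z ∈ S41D_B N q`, `x` a Kummer generator with `KChar x = red z`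
                     `⇒ GR_IsTriv N n (N_α x) ∧ GR_IsTriv N n (N_β x)`.
-/

set_option autoImplicit false
set_option synthInstance.maxHeartbeats 400000
set_option maxHeartbeats 1000000
set_option linter.style.haveILetI false
set_option linter.unusedSectionVars false

open UpperHalfPlane hiding I
open scoped MatrixGroups Manifold ModularForm
open CongruenceSubgroup Matrix.SpecialLinearGroup ModularCurve AlgebraicCurve IntermediateField
open P2MW.S_ModularForm_heckeT_slash_eq_self_of_mem_Gamma0.ModularForm.HeckeSlashInvariance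
open ModularForm

noncomputable section

namespace Fermat.Agent.S35

open Fermat.Agent.S24 Fermat.Agent.S16 Fermat.Agent.GalRep Fermat.Agent.S41 Fermat.Agent.S20
open Fermat.Agent.S28

variable (N q : ℕ) [NeZero N] [NeZero q]

theorem S35B_diag_smul (τ : ℍ) : heckeDiagMatrix q • τ = ut q 0 1 • τ := by
  apply UpperHalfPlane.ext
  rw [coe_heckeDiagMatrix_smul (NeZero.ne q), coe_ut_one_smul (Nat.pos_of_ne_zero (NeZero.ne q))]

/-- `(jHol d) ∘ diag(q,1) = jHol (q d)`. -/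
theorem S35B_holComp_diag_jHol (d : ℕ) (hd : 0 < d) :
    GRHM_holComp (heckeDiagMatrix q) (jHol d) = jHol (q * d) := by
  rw [hol_ext_iff]
  intro τ
  rw [GRHM_holComp_heckeDiagMatrix_apply, jHol_apply, jHol_apply,
    S35B_diag_smul q, GRHP_jFun_ut hd (Nat.pos_of_ne_zero (NeZero.ne q)),
    mul_comm]

/-- `ev_{Nq} (β f) = (ev_N f) ∘ diag(q,1)`. -/
theorem S35B_ev_beta (f : ↥(modularFunctionFieldBar N)) :
    ev (N * q) (heckeBetaBar (AlgebraicClosure ℚ) N q f)
      = GRHM_merComp (heckeDiagMatrix q) (ev N f) := by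
  have key : (ev (N * q)).comp
      (heckeBetaBar (AlgebraicClosure ℚ) N q : ↥(modularFunctionFieldBar N) →+*
        ↥(modularFunctionFieldBar (N * q)))
      = (GRHM_merComp (heckeDiagMatrix q)).comp (ev N) := by
    apply ringHom_ext_gen N
    · intro a
      simp only [RingHom.comp_apply, RingHom.coe_coe, AlgHom.commutes]
      rw [(isEv_ev (N * q)).const, (isEv_ev N).const, GRHM_merComp_const]
    · intro d _ hd
      simp only [RingHom.comp_apply, RingHom.coe_coe]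
      rw [GRHF_beta_jBar, (isEv_ev (N * q)).gen, (isEv_ev N).gen, GRHM_merComp_algebraMap,
        S35B_holComp_diag_jHol q d (Nat.pos_of_ne_zero (NeZero.ne d))]
  exact congrArg (fun φ : ↥(modularFunctionFieldBar N) →+* Mer => φ f) key


/-! ### the key `j`-identity and distinctness -/

/-- `j(z / q) = j(q · (S z))`. -/
theorem S35B_jFun_diag_inv (z : ℍ) :
    jFun 1 ((heckeDiagMatrix q)⁻¹ • z) = jFun q (ModularGroup.S • z) := by
  have hq : 0 < q := Nat.pos_of_ne_zero (NeZero.ne q)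
  set v : ℍ := (heckeDiagMatrix q)⁻¹ • z with hv
  have hz : z = ut q 0 1 • v := by
    rw [← S35B_diag_smul q, hv, smul_inv_smul]
  have h1 : ut q 0 1 • (ModularGroup.S • z) = ModularGroup.S • (ut 1 0 1 • v) := by
    rw [hz]
    exact GRHF_ut_smul_w hq one_pos (mul_one q) v
  rw [jFun_eq_jfun q, h1, S24_jfun_smul, ← jFun_eq_jfun 1]

theorem S35B_S_10 : (ModularGroup.S : SL(2, ℤ)) 1 0 = 1 := rfl
theorem S35B_S_11 : (ModularGroup.S : SL(2, ℤ)) 1 1 = 0 := rfl

/-- if `j(D⁻¹ s D τ) = j(D⁻¹ s' D τ)` for all `τ` (`D = diag(q,1)`), then `q ∣ (s' s⁻¹)₀₁`. -/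
theorem S35B_dvd_of_jFun_eq (s s' : SL(2, ℤ))
    (h : ∀ τ : ℍ, jFun 1 ((heckeDiagMatrix q)⁻¹ • (s • (heckeDiagMatrix q • τ)))
      = jFun 1 ((heckeDiagMatrix q)⁻¹ • (s' • (heckeDiagMatrix q • τ)))) :
    (q : ℤ) ∣ (s' * s⁻¹) 0 1 := by
  have h1 := h ((heckeDiagMatrix q)⁻¹ • (s⁻¹ • ((ModularGroup.S)⁻¹ • S24_tau0)))
  rw [smul_inv_smul, smul_inv_smul, S35B_jFun_diag_inv, S35B_jFun_diag_inv, smul_inv_smul,
    ← mul_smul, ← mul_smul, ← mul_smul] at h1
  have h2 := S24_mem_Gamma0_of_jFun_eq q _ h1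
  rw [S41A_Gamma0_mem_iff] at h2
  have h3 : (ModularGroup.S * s' * s⁻¹ * (ModularGroup.S)⁻¹) 1 0 = -((s' * s⁻¹) 0 1) := by
    have : ModularGroup.S * s' * s⁻¹ * (ModularGroup.S)⁻¹
        = ModularGroup.S * (s' * s⁻¹) * (ModularGroup.S)⁻¹ := by group
    rw [this, S41U_conj_10, S35B_S_10, S35B_S_11]
    ring
  rw [h3] at h2
  exact (dvd_neg).mp h2


/-! ### the norm formula along `β` -/

theorem S35B_det_diag_inv_pos : 0 < ((heckeDiagMatrix q)⁻¹ : GL (Fin 2) ℝ).det.val := by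
  rw [map_inv, Units.val_inv_eq_inv_val]
  exact inv_pos.mpr (det_heckeDiagMatrix_pos q)

theorem S35B_det_b_pos (s : SL(2, ℤ)) :
    0 < ((heckeDiagMatrix q)⁻¹ * mapGL ℝ s : GL (Fin 2) ℝ).det.val :=
  GRHM_det_mul_pos (S35B_det_diag_inv_pos q) (GRHM_det_mapGL_pos s)

theorem S35B_det_c_pos (s : SL(2, ℤ)) :
    0 < ((heckeDiagMatrix q)⁻¹ * mapGL ℝ s * heckeDiagMatrix q : GL (Fin 2) ℝ).det.val :=
  GRHM_det_mul_pos (S35B_det_b_pos q s) (det_heckeDiagMatrix_pos q)

variable {N q}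

/-- **norm formula along `β` in `Mer`**: `ev_N (N_β x) = ∏_i (ev_{Nq} x) ∘ (D⁻¹ s_i)`,
`D = diag(q,1)`, `s_i = S41D_sB h i` the transversal of `D Γ₀(N q) D⁻¹ \ Γ₀(N)`. -/
theorem S35B_ev_NB [Fact q.Prime] (hqN : ¬ q ∣ N) {a b : ℤ} (h : (q : ℤ) * a - N * b = 1)
    (x : ↥(modularFunctionFieldBar (N * q))) :
    ev N (S35B_NB N q x)
      = ∏ i : OnePoint (ZMod q),
          GRHM_merComp ((heckeDiagMatrix q)⁻¹ * mapGL ℝ ((S41D_sB h i : Gamma0 N) : SL(2, ℤ)))
            (ev (N * q) x) := by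
  classical
  have hq : q.Prime := Fact.out
  letI algF : Algebra ↥(modularFunctionFieldBar N) ↥(modularFunctionFieldBar (N * q)) :=
    (heckeBetaBar (AlgebraicClosure ℚ) N q).toRingHom.toAlgebra
  letI algM : Algebra ↥(modularFunctionFieldBar N) Mer :=
    ((GRHM_merComp (heckeDiagMatrix q)).comp (ev N)).toAlgebra
  haveI fd : FiniteDimensional ↥(modularFunctionFieldBar N) ↥(modularFunctionFieldBar (N * q)) :=
    GRHK_finiteDimensional hq
  let σ : OnePoint (ZMod q) → (↥(modularFunctionFieldBar (N * q)) →ₐ[↥(modularFunctionFieldBar N)]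
      Mer) := fun i =>
    { (GRHM_merComp ((heckeDiagMatrix q)⁻¹ * mapGL ℝ ((S41D_sB h i : Gamma0 N) : SL(2, ℤ))
        * heckeDiagMatrix q)).comp (ev (N * q)) with
      commutes' := fun f => by
        show GRHM_merComp ((heckeDiagMatrix q)⁻¹ * mapGL ℝ ((S41D_sB h i : Gamma0 N) : SL(2, ℤ))
            * heckeDiagMatrix q) (ev (N * q) (heckeBetaBar (AlgebraicClosure ℚ) N q f))
          = GRHM_merComp (heckeDiagMatrix q) (ev N f)
        rw [S35B_ev_beta, ← GRHM_merComp_mul_apply (det_heckeDiagMatrix_pos q)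
          (S35B_det_c_pos q _)]
        have e1 : heckeDiagMatrix q * ((heckeDiagMatrix q)⁻¹
            * mapGL ℝ ((S41D_sB h i : Gamma0 N) : SL(2, ℤ)) * heckeDiagMatrix q)
            = mapGL ℝ ((S41D_sB h i : Gamma0 N) : SL(2, ℤ)) * heckeDiagMatrix q := by group
        rw [e1, GRHM_merComp_mul_apply (GRHM_det_mapGL_pos _) (det_heckeDiagMatrix_pos q),
          GRHM_merComp_mapGL, S24_hinv N (ev N) (isEv_ev N) _ (S41D_sB h i).2] }
  have hσ : Function.Injective σ := by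
    intro i k hik
    have h1 := congrArg (fun φ : ↥(modularFunctionFieldBar (N * q)) →ₐ[↥(modularFunctionFieldBar N)]
        Mer => φ (jBar (N * q) 1 (one_dvd _))) hik
    have h2 : GRHM_merComp ((heckeDiagMatrix q)⁻¹ * mapGL ℝ ((S41D_sB h i : Gamma0 N) : SL(2, ℤ))
          * heckeDiagMatrix q) (ev (N * q) (jBar (N * q) 1 (one_dvd _)))
        = GRHM_merComp ((heckeDiagMatrix q)⁻¹ * mapGL ℝ ((S41D_sB h k : Gamma0 N) : SL(2, ℤ))
          * heckeDiagMatrix q) (ev (N * q) (jBar (N * q) 1 (one_dvd _))) := h1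
    rw [(isEv_ev (N * q)).gen 1 (one_dvd _), GRHM_merComp_algebraMap,
      GRHM_merComp_algebraMap] at h2
    have h3 := IsFractionRing.injective Hol Mer h2
    have h4 : (q : ℤ) ∣ (((S41D_sB h k : Gamma0 N) : SL(2, ℤ))
        * ((S41D_sB h i : Gamma0 N) : SL(2, ℤ))⁻¹) 0 1 := by
      apply S35B_dvd_of_jFun_eq q
      intro τ
      have h5 := congrArg (fun f : Hol => (f : ℍ → ℂ) τ) h3
      simp only [GRHM_holComp_apply (S35B_det_c_pos q _), jHol_apply, mul_smul] at h5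
      exact h5
    have h6 : S41D_sB h k * (S41D_sB h i)⁻¹ ∈ (S41A_deg N q).range :=
      (S41D_mem_range_deg hq.ne_zero _).mpr h4
    have h7 : ((S41D_sB h i)⁻¹)⁻¹ * (S41D_sB h k)⁻¹ ∈ (S41A_deg N q).range := by
      have := inv_mem h6
      rw [mul_inv_rev, inv_inv] at this
      rw [inv_inv]
      exact this
    exact (S41D_sB_bijective h).1 (QuotientGroup.eq.mpr h7)
  have hcard : Module.finrank ↥(modularFunctionFieldBar N) ↥(modularFunctionFieldBar (N * q))
      ≤ Fintype.card (OnePoint (ZMod q)) := by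
    rw [GRHF_finrank_beta N q hq, if_neg hqN, S41D_card_onePoint]
  have key := S24_norm_eq_prod_of_injective σ hσ hcard x
  have key' : GRHM_merComp (heckeDiagMatrix q) (ev N (S35B_NB N q x))
      = ∏ i : OnePoint (ZMod q),
          GRHM_merComp ((heckeDiagMatrix q)⁻¹ * mapGL ℝ ((S41D_sB h i : Gamma0 N) : SL(2, ℤ))
            * heckeDiagMatrix q) (ev (N * q) x) := key
  have h8 := congrArg (GRHM_merComp ((heckeDiagMatrix q)⁻¹)) key'
  rw [← GRHM_merComp_mul_apply (det_heckeDiagMatrix_pos q) (S35B_det_diag_inv_pos q),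
    mul_inv_cancel, GRHM_merComp_one, map_prod] at h8
  rw [show ev N (S35B_NB N q x) = (RingHom.id Mer) (ev N (S35B_NB N q x)) from rfl, h8]
  refine Finset.prod_congr rfl fun i _ => ?_
  rw [← GRHM_merComp_mul_apply (S35B_det_c_pos q _) (S35B_det_diag_inv_pos q),
    mul_inv_cancel_right]


/-! ### the Kummer character of `N_β x` is the transfer `trB` -/

/-- `D⁻¹ · deg(h) = h · D⁻¹`. -/
theorem S35B_diag_inv_deg (hq : q ≠ 0) (g : Gamma0 (N * q)) :
    (heckeDiagMatrix q)⁻¹ * mapGL ℝ ((S41A_deg N q g : Gamma0 N) : SL(2, ℤ))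
      = mapGL ℝ ((g : Gamma0 (N * q)) : SL(2, ℤ)) * (heckeDiagMatrix q)⁻¹ := by
  have h1 := S41D_delta_res (N := N) hq g
  rw [S41A_res_coe] at h1
  rw [inv_mul_eq_iff_eq_mul, ← mul_assoc, h1, mul_inv_cancel_right]

/-- **BRIDGE (β)**: if the Kummer character of `x ∈ F_{Nq}` is the reduction of `z`, then the
Kummer character of the norm `N_β x ∈ F_N` is the reduction of `trB z`. -/
theorem S35B_NB_char [Fact q.Prime] (hqN : ¬ q ∣ N) (n : ℕ) (hn : 0 < n)
    (x : ↥(modularFunctionFieldBar (N * q))) (z : ↥(parInt (N * q)))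
    (hx : GR_KChar (N * q) n x
      ((GRT_red (N * q) n z : ↥(GRT_X (N * q) n)) : Additive (Gamma0 (N * q)) →+ ZMod n)) :
    GR_KChar N n (S35B_NB N q x)
      ((GRT_red N n (S41D_trB N q z) : ↥(GRT_X N n)) : Additive (Gamma0 N) →+ ZMod n) := by
  have hq : q.Prime := Fact.out
  obtain ⟨a, b, h⟩ := S41D_exists_ab hq hqN
  obtain ⟨y, hy, hchar⟩ := hx
  refine ⟨∏ i : OnePoint (ZMod q),
    GRHM_merComp ((heckeDiagMatrix q)⁻¹ * mapGL ℝ ((S41D_sB h i : Gamma0 N) : SL(2, ℤ))) y,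
    ?_, ?_⟩
  · rw [S35B_ev_NB hqN h, ← Finset.prod_pow]
    refine Finset.prod_congr rfl fun i _ => ?_
    rw [← map_pow, hy]
  · intro γ
    obtain ⟨σ, hh, hmul⟩ := S41D_exists_data (S41A_deg N q).range
      (fun i => (S41D_sB h i)⁻¹) (S41D_sB_bijective h) γ
    choose h' hh' using fun i => (hh i).2
    have hmul' : ∀ i, γ * (S41D_sB h (σ i))⁻¹ = (S41D_sB h i)⁻¹ * S41A_deg N q (h' i) :=
      fun i => by rw [hh']; exact hmul i
    have hsγ : ∀ i, S41D_sB h i * γ = S41A_deg N q (h' i) * S41D_sB h (σ i) := by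
      intro i
      have := hmul' i
      calc S41D_sB h i * γ
          = S41D_sB h i * (γ * (S41D_sB h (σ i))⁻¹) * S41D_sB h (σ i) := by group
        _ = S41A_deg N q (h' i) * S41D_sB h (σ i) := by rw [this]; group
    have key := S35B_prod_char hn hchar
      (fun i : OnePoint (ZMod q) =>
        (heckeDiagMatrix q)⁻¹ * mapGL ℝ ((S41D_sB h i : Gamma0 N) : SL(2, ℤ)))
      (fun i => S35B_det_b_pos q _) (γ : SL(2, ℤ)) σ h' (fun i => by
        have e1 : mapGL ℝ ((S41D_sB h i : Gamma0 N) : SL(2, ℤ)) * mapGL ℝ (γ : SL(2, ℤ))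
            = mapGL ℝ ((S41A_deg N q (h' i) : Gamma0 N) : SL(2, ℤ))
              * mapGL ℝ ((S41D_sB h (σ i) : Gamma0 N) : SL(2, ℤ)) := by
          rw [← map_mul, ← map_mul]
          congr 1
          have := congrArg (fun g : Gamma0 N => (g : SL(2, ℤ))) (hsγ i)
          simpa using this
        rw [mul_assoc, e1, ← mul_assoc, S35B_diag_inv_deg hq.ne_zero, mul_assoc])
    rw [key]
    congr 2
    rw [GRT_red_apply, S41D_trB_apply N q z (fun i => (S41D_sB h i)⁻¹) (S41D_sB_bijective h) γ σ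
      h' hmul', Int.cast_sum]
    rfl

/-- the norm `N_β` of a Kummer generator is a Kummer generator. -/
theorem S35B_NB_kum [Fact q.Prime] (n : ℕ)
    {x : ↥(modularFunctionFieldBar (N * q))}
    (hx : KM_IsKum (AlgebraicClosure ℚ) ↥(modularFunctionFieldBar (N * q)) n x) :
    KM_IsKum (AlgebraicClosure ℚ) ↥(modularFunctionFieldBar N) n (S35B_NB N q x) :=
  GRNK_norm_of_algHom (heckeBetaBar (AlgebraicClosure ℚ) N q)
    (GRHK_finiteDimensional Fact.out) n hx

/-- **BRIDGE (β), triviality**: if the Kummer character of the Kummer generator `x ∈ F_{Nq}` is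
the reduction of `z` with `trB z = 0`, then `N_β x` is a trivial Kummer generator of `F_N`. -/
theorem S35B_NB_triv [Fact q.Prime] (hqN : ¬ q ∣ N) (hK : GR_KappaStmt N) (n : ℕ) (hn : 0 < n)
    (x : ↥(modularFunctionFieldBar (N * q))) (z : ↥(parInt (N * q)))
    (hz : S41D_trB N q z = 0)
    (hkum : KM_IsKum (AlgebraicClosure ℚ) ↥(modularFunctionFieldBar (N * q)) n x)
    (hx : GR_KChar (N * q) n x
      ((GRT_red (N * q) n z : ↥(GRT_X (N * q) n)) : Additive (Gamma0 (N * q)) →+ ZMod n)) :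
    GR_IsTriv N n (S35B_NB N q x) := by
  have h1 := S35B_NB_char hqN n hn x z hx
  rw [hz, map_zero] at h1
  exact hK.inj n hn _ (S35B_NB_kum n hkum) h1

/-- **BRIDGE, final form**: a `q`-new Kummer generator (`KChar x = red z`, `z ∈ S41D_B N q`
`= ker trA ⊓ ker trB`) has trivial norms `N_α x`, `N_β x` at level `N`. -/
theorem S35B_bridge [Fact q.Prime] (hqN : ¬ q ∣ N) (hK : GR_KappaStmt N) (n : ℕ) (hn : 0 < n)
    (x : ↥(modularFunctionFieldBar (N * q))) (z : ↥(parInt (N * q)))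
    (hz : z ∈ S41D_B N q)
    (hkum : KM_IsKum (AlgebraicClosure ℚ) ↥(modularFunctionFieldBar (N * q)) n x)
    (hx : GR_KChar (N * q) n x
      ((GRT_red (N * q) n z : ↥(GRT_X (N * q) n)) : Additive (Gamma0 (N * q)) →+ ZMod n)) :
    GR_IsTriv N n (S35B_NA N q x) ∧ GR_IsTriv N n (S35B_NB N q x) := by
  have hz' := (S41D_mem_B N q z).mp hz
  exact ⟨S35B_NA_triv hqN hK n hn x z hz'.1 hkum hx, S35B_NB_triv hqN hK n hn x z hz'.2 hkum hx⟩

end Fermat.Agent.S35
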