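import Fermat.Agent.S35.Wire
import Fermat.Agent.S34.ValHgenAsm
import Fermat.Agent.S34.Asm3

/-!
# TRACK 7 (NODE), package ALG35 (helper29): frozen S35 from the NODE sub-targets

* `S35A_hgen` : (VAL-HGEN) `S34M_HGen M q` for every prime `q ∤ M` (helper18's `S34VH_hgen`);
* `S35A_of_KSig2` : the statement of S35 from (K-sig2) alone;
* `S35A_of_nodes` : the statement of S35 from the sub-targets `S34M_Nodes` (G1 + G2 + G3) and
  `S34M_StraightSig` (G4 + G5) of `S34/Asm3.lean`.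
-/

set_option autoImplicit false
set_option linter.style.haveILetI false
set_option linter.overlappingInstances false

open ModularCurve

namespace Fermat.Agent.S35

open Fermat.Agent.S34

/-- **(VAL-HGEN)** at every level `M * q`, `q ∤ M` prime. -/
theorem S35A_hgen (M q : ℕ) [NeZero (M * q)] (hq : q.Prime) (hqM : ¬ q ∣ M) :
    S34M_HGen M q := by
  haveI : NeZero M := ⟨fun h => NeZero.ne (M * q) (by rw [h, zero_mul])⟩
  haveI : NeZero q := ⟨hq.ne_zero⟩
  intro A hA
  exact S34VH_hgen M q hq hqM A hA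

/-- **S35 from (K-sig2)** alone. -/
theorem S35A_of_KSig2
    (hK : ∀ (M q : ℕ) [NeZero (M * q)] (hq : q.Prime) (hqM : ¬ q ∣ M), S34M_KSig2 M q hq hqM) :
    S35A_Stmt :=
  S35A_of_targets (fun M q _ hq hqM => S35A_hgen M q hq hqM) hK

/-- **S35 from the nodes and the straightness of Frobenius lifts.** -/
theorem S35A_of_nodes
    (hN : ∀ (M q : ℕ) [NeZero (M * q)] (hq : q.Prime) (hqM : ¬ q ∣ M) (n : ℕ) (hn : 0 < n),
      ¬ q ∣ n → ∀ (A : ValuationSubring (AlgebraicClosure ℚ)), A.LiesOverPrime q →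
      ∀ hgen : PrincipalGeneratedByIntegral A (IsLocalRing.residue A) (M * q),
      S34M_Nodes M q hq hqM A hgen n hn)
    (hS : ∀ (M q : ℕ) [NeZero (M * q)] (hq : q.Prime) (hqM : ¬ q ∣ M) (n : ℕ) (hn : 0 < n),
      ¬ q ∣ n → ∀ (σ : AlgebraicClosure ℚ ≃ₐ[ℚ] AlgebraicClosure ℚ)
      (A : ValuationSubring (AlgebraicClosure ℚ)), A.LiesOverPrime q → A.IsFrobeniusAt σ q →
      ∀ hgen : PrincipalGeneratedByIntegral A (IsLocalRing.residue A) (M * q),
      S34M_StraightSig M q hq hqM A hgen n hn σ) :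
    S35A_Stmt :=
  S35A_of_KSig2 (fun M q _ hq hqM => S34M_kSig2 M q hq hqM (hN M q hq hqM) (hS M q hq hqM))

end Fermat.Agent.S35
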