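import Mathlib
import Fermat.Agent.GalRep.AlgFinal

/-!
# TRACK 7 (NODE), package ALG35 (helper29), part A4: the determinant step with a bad prime

`S35A_alg`: from an E–S datum `D` (as in `GR_alg`) whose representation satisfies, for every
Frobenius lift `σ` at the primes `q ∥ N`, `q ≠ p`, the quartic relation
`(ρ(σ)² − q²)(ρ(σ)² − 1) = 0`, to a representation with the good-prime characteristic polynomials
AND characteristic polynomial `(X − 1)(X − q)` or `(X + 1)(X + q)` at every Frobenius lift at `q`.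

Both cases of `GR_alg` are treated: case A (`det = cyclotomic`) by the identity
`(T² − q²)(T² − 1) = (t² − (1+q)²) T²` for `T² = t T − q`; case B (`ρ` scalar) directly.
-/

set_option autoImplicit false
set_option linter.unusedSectionVars false
open Polynomial

namespace Fermat.Agent.S35

open Fermat.Agent.GalRep

section linalg

variable {R : Type*} [CommRing R] [IsDomain R] {V : Type*} [AddCommGroup V] [Module R V]
  [Module.Free R V] [Module.Finite R V]

/-- Cayley–Hamilton in rank 2. -/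
theorem S35A_cayley (h2 : Module.finrank R V = 2) (T : Module.End R V) :
    T * T = LinearMap.trace R V T • T - LinearMap.det T • (1 : Module.End R V) := by
  have h := LinearMap.aeval_self_charpoly T
  rw [GR_charpoly_rank2 h2] at h
  simp only [map_add, map_sub, map_mul, map_pow, aeval_X, aeval_C] at h
  rw [Algebra.algebraMap_eq_smul_one, Algebra.algebraMap_eq_smul_one, smul_mul_assoc, one_mul,
    sq] at h
  exact eq_sub_of_add_eq (sub_eq_zero.mp (by rw [← h]; abel))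

/-- the quartic identity: if `T² = t T − d` then
`(T² − d²)(T² − 1) = (t² − (1+d)²) T²`. -/
theorem S35A_quartic (h2 : Module.finrank R V = 2) (T : Module.End R V) (d : R)
    (hd : LinearMap.det T = d) :
    (T * T - (d ^ 2) • (1 : Module.End R V)) * (T * T - 1)
      = ((LinearMap.trace R V T) ^ 2 - (1 + d) ^ 2) • (T * T) := by
  set t := LinearMap.trace R V T with ht
  have h := LinearMap.aeval_self_charpoly T
  rw [GR_charpoly_rank2 h2, hd, ← ht] at h
  have key : ((X : R[X]) ^ 2 - C (d ^ 2)) * (X ^ 2 - 1) - C (t ^ 2 - (1 + d) ^ 2) * X ^ 2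
      = (X ^ 2 - C t * X + C d) * (X ^ 2 + C t * X + C d) := by
    simp only [map_sub, map_pow, map_add, map_one]
    ring
  have h3 := congrArg (aeval T) key
  rw [map_mul (aeval T) (X ^ 2 - C t * X + C d), h, zero_mul] at h3
  simp only [map_sub, map_mul, aeval_X_pow, aeval_C, map_one] at h3
  simp only [Algebra.algebraMap_eq_smul_one] at h3
  rw [← sub_smul, smul_mul_assoc, one_mul] at h3
  exact sub_eq_zero.mp h3

/-- a scalar multiple of an endomorphism with non-zero determinant vanishes only for the scalar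
zero. -/
theorem S35A_smul_eq_zero (h2 : Module.finrank R V = 2) (A : Module.End R V) (c : R)
    (hA : LinearMap.det A ≠ 0) (h : c • A = 0) : c = 0 := by
  have := congrArg LinearMap.det h
  rw [LinearMap.det_smul, LinearMap.det_zero, h2] at this
  simp only [ne_eq, OfNat.ofNat_ne_zero, not_false_eq_true, zero_pow, mul_eq_zero,
    pow_eq_zero_iff] at this
  exact this.resolve_right hA

/-- **case A**: determinant `d` and the quartic relation give the characteristic polynomial. -/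
theorem S35A_charpoly_of_det (h2 : Module.finrank R V = 2) (T : Module.End R V) (d : R)
    (hd0 : d ≠ 0) (hd : LinearMap.det T = d)
    (hq : (T * T - (d ^ 2) • (1 : Module.End R V)) * (T * T - 1) = 0) :
    T.charpoly = X ^ 2 - C (d + 1) * X + C d ∨ T.charpoly = X ^ 2 + C (d + 1) * X + C d := by
  rw [S35A_quartic h2 T d hd] at hq
  have hTT : LinearMap.det (T * T) ≠ 0 := by
    rw [map_mul, hd]
    exact mul_ne_zero hd0 hd0
  have ht := S35A_smul_eq_zero h2 (T * T) _ hTT hq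
  have ht' : (LinearMap.trace R V T - (1 + d)) * (LinearMap.trace R V T + (1 + d)) = 0 := by
    linear_combination ht
  rw [GR_charpoly_rank2 h2, hd]
  rcases mul_eq_zero.mp ht' with h | h
  · left
    rw [sub_eq_zero.mp h, add_comm 1 d]
  · right
    rw [eq_neg_of_add_eq_zero_left h, add_comm 1 d, map_neg, neg_mul, sub_neg_eq_add]

end linalg

section main

variable {p N : ℕ} {S : Finset ℕ} {𝒪 : Type} [CommRing 𝒪] [IsDomain 𝒪]
  [IsDiscreteValuationRing 𝒪] [IsAdicComplete (IsLocalRing.maximalIdeal 𝒪) 𝒪] [CharZero 𝒪]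
  {a : ℕ → 𝒪}

/-- the determinant of the representation in case A is the cyclotomic character. -/
theorem S35A_det_eq (ρ : GaloisRepAdic 𝒪) (c : GR_Cyc p 𝒪) (h : ∀ n, GR_U1 ρ c n = ⊤) (σ : GQ) :
    LinearMap.det (ρ.ρ σ) = (c.ε σ : 𝒪) := by
  apply sub_eq_zero.mp
  refine GR_sep _ fun n => ?_
  have : σ ∈ GR_U1 ρ c n := by rw [h n]; exact Subgroup.mem_top σ
  exact this

/-- **ALG35, A4**: the determinant step with the bad primes `q ∥ N`. -/
theorem S35A_alg (hpS : p ∈ S) (hDS : GR_DS) (c : GR_Cyc p 𝒪) (D : GR_ESDatum p N S 𝒪 a)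
    (hbad : ∀ q : ℕ, q.Prime → q ≠ p → q ∣ N → ¬ q ^ 2 ∣ N → ∀ σ : GQ, GR_IsFrob q σ →
      (D.ρ.ρ σ * D.ρ.ρ σ - (((q : 𝒪)) ^ 2) • (1 : Module.End 𝒪 D.ρ.V))
        * (D.ρ.ρ σ * D.ρ.ρ σ - 1) = 0) :
    ∃ ρ : GaloisRepAdic 𝒪,
      (∀ ℓ : ℕ, ℓ.Prime → ¬ ℓ ∣ N → ℓ ∉ S → ∀ σ : GQ, GR_IsFrob ℓ σ →
        LinearMap.charpoly (ρ.ρ σ) = X ^ 2 - C (a ℓ) * X + C ((ℓ : 𝒪))) ∧
      (∀ q : ℕ, q.Prime → ¬ q ∣ N → q ≠ p → ρ.IsUnramifiedAt q) ∧
      (∀ q : ℕ, q.Prime → q ≠ p → q ∣ N → ¬ q ^ 2 ∣ N → ∀ σ : GQ, GR_IsFrob q σ →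
        LinearMap.charpoly (ρ.ρ σ) = X ^ 2 - C ((q : 𝒪) + 1) * X + C ((q : 𝒪)) ∨
        LinearMap.charpoly (ρ.ρ σ) = X ^ 2 + C ((q : 𝒪) + 1) * X + C ((q : 𝒪))) := by
  by_cases hN : N = 0
  · subst hN
    refine ⟨D.ρ, fun ℓ _ hℓN => absurd (dvd_zero ℓ) hℓN, fun q _ hqN => absurd (dvd_zero q) hqN,
      fun q _ _ _ hq2 => absurd (dvd_zero _) hq2⟩
  rcases GR_U1_or_U2 hN hDS D c hpS with h1 | h2
  · -- case A
    refine ⟨D.ρ, fun ℓ hℓ hℓN hℓS σ hσ => GR_caseA D c hpS h1 hℓ hℓN hℓS σ hσ, D.unram, ?_⟩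
    intro q hq hqp hqN hq2 σ hσ
    have hdet : LinearMap.det (D.ρ.ρ σ) = (q : 𝒪) := by
      rw [S35A_det_eq D.ρ c h1 σ, c.frob q hq hqp σ hσ]
    have hq0 : (q : 𝒪) ≠ 0 := Nat.cast_ne_zero.mpr hq.ne_zero
    exact S35A_charpoly_of_det D.ρ.finrank_eq (D.ρ.ρ σ) (q : 𝒪) hq0 hdet (hbad q hq hqp hqN hq2 σ hσ)
  · -- case B
    have hs := GR_scalar_all D.ρ h2
    have hcont : ∀ n : ℕ, ∃ L : IntermediateField ℚ (AlgebraicClosure ℚ),
        FiniteDimensional ℚ L ∧ ∀ σ : GQ, (∀ x ∈ L, σ x = x) →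
          GR_mu D.ρ hs σ - 1 ∈ IsLocalRing.maximalIdeal 𝒪 ^ n ∧
          GR_nu D.ρ c hs σ - 1 ∈ IsLocalRing.maximalIdeal 𝒪 ^ n := by
      intro n
      obtain ⟨L₁, hL₁, h₁⟩ := D.ρ.isAdicContinuous n
      obtain ⟨L₂, hL₂, h₂⟩ := c.cont n
      refine ⟨L₁ ⊔ L₂, IntermediateField.finiteDimensional_sup L₁ L₂, fun σ hσ => ?_⟩
      have hσ1 : ∀ x ∈ L₁, σ x = x := fun x hx => hσ x (le_sup_left (a := L₁) hx)
      have hσ2 : ∀ x ∈ L₂, σ x = x := fun x hx => hσ x (le_sup_right (b := L₂) hx)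
      have hσ1' : ∀ x ∈ L₁, σ⁻¹ x = x := fun x hx => by
        have := hσ1 x hx
        calc σ⁻¹ x = σ⁻¹ (σ x) := by rw [this]
          _ = x := by
            rw [← AlgEquiv.mul_apply, inv_mul_cancel, AlgEquiv.one_apply]
      have hm := GR_mu_sub_one_mem D.ρ hs n σ (h₁ σ hσ1)
      have hm' := GR_mu_sub_one_mem D.ρ hs n σ⁻¹ (h₁ σ⁻¹ hσ1')
      have he := h₂ σ hσ2
      refine ⟨hm, ?_⟩
      rw [GR_nu_apply]
      have : (c.ε σ : 𝒪) * GR_mu D.ρ hs σ⁻¹ - 1
          = ((c.ε σ : 𝒪) - 1) * GR_mu D.ρ hs σ⁻¹ + (GR_mu D.ρ hs σ⁻¹ - 1) := by ring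
      rw [this]
      exact Ideal.add_mem _ (Ideal.mul_mem_right _ _ he) hm'
    refine ⟨GR_diagRep (GR_mu D.ρ hs) (GR_nu D.ρ c hs) hcont, ?_, ?_, ?_⟩
    · intro ℓ hℓ hℓN hℓS σ hσ
      show (GR_diagHom (GR_mu D.ρ hs) (GR_nu D.ρ c hs) σ).charpoly = _
      rw [GR_diagHom_charpoly, GR_nu_apply]
      have hℓp : ℓ ≠ p := fun h => hℓS (h ▸ hpS)
      rw [c.frob ℓ hℓ hℓp σ hσ]
      have hrel := GR_mu_rel D hs hℓ hℓN hℓS σ hσ
      have hinv := GR_mu_mul_inv D.ρ hs σ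
      have htr : GR_mu D.ρ hs σ + (ℓ : 𝒪) * GR_mu D.ρ hs σ⁻¹ = a ℓ := by
        linear_combination (GR_mu D.ρ hs σ⁻¹) * hrel
          + (a ℓ - GR_mu D.ρ hs σ) * hinv
      have hdet : GR_mu D.ρ hs σ * ((ℓ : 𝒪) * GR_mu D.ρ hs σ⁻¹) = ℓ := by
        linear_combination (ℓ : 𝒪) * hinv
      rw [htr, hdet]
    · intro q hq hqN hqp P hP τ hτ
      show GR_diagHom (GR_mu D.ρ hs) (GR_nu D.ρ c hs) τ = 1
      have hτ' : τ⁻¹ ∈ P.inertiaSubgroupIn ℚ := Subgroup.inv_mem _ hτ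
      apply GR_diagHom_eq_one
      · exact GR_mu_eq_one D.ρ hs τ (D.unram q hq hqN hqp P hP τ hτ)
      · rw [GR_nu_apply, c.unram q hq hqp P hP τ hτ,
          GR_mu_eq_one D.ρ hs τ⁻¹ (D.unram q hq hqN hqp P hP τ⁻¹ hτ')]
        simp
    · intro q hq hqp hqN hq2 σ hσ
      show (GR_diagHom (GR_mu D.ρ hs) (GR_nu D.ρ c hs) σ).charpoly = _ ∨
        (GR_diagHom (GR_mu D.ρ hs) (GR_nu D.ρ c hs) σ).charpoly = _
      rw [GR_diagHom_charpoly, GR_nu_apply, c.frob q hq hqp σ hσ]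
      have hinv := GR_mu_mul_inv D.ρ hs σ
      set m := GR_mu D.ρ hs σ with hm
      set m' := GR_mu D.ρ hs σ⁻¹ with hm'
      have hq0 : (q : 𝒪) ≠ 0 := Nat.cast_ne_zero.mpr hq.ne_zero
      have hb := hbad q hq hqp hqN hq2 σ hσ
      rw [GR_mu_spec D.ρ hs σ, ← hm] at hb
      have e1 : (m • (1 : Module.End 𝒪 D.ρ.V)) * (m • (1 : Module.End 𝒪 D.ρ.V))
          = (m * m) • (1 : Module.End 𝒪 D.ρ.V) := by
        rw [smul_mul_smul_comm, mul_one]
      have e2 : (m * m) • (1 : Module.End 𝒪 D.ρ.V) - ((q : 𝒪) ^ 2) • (1 : Module.End 𝒪 D.ρ.V)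
          = (m * m - (q : 𝒪) ^ 2) • (1 : Module.End 𝒪 D.ρ.V) := (sub_smul _ _ _).symm
      have e3 : (m * m) • (1 : Module.End 𝒪 D.ρ.V) - 1
          = (m * m - 1) • (1 : Module.End 𝒪 D.ρ.V) := by
        rw [sub_smul, one_smul]
      rw [e1, e2, e3, smul_mul_smul_comm, mul_one] at hb
      have hb' : ((m * m - (q : 𝒪) ^ 2) * (m * m - 1)) • (1 : Module.End 𝒪 D.ρ.V) = 0 := hb
      have hb'' := GR_smul_one_eq_zero D.ρ.finrank_eq hb'
      have hdetm : m * ((q : 𝒪) * m') = q := by linear_combination (q : 𝒪) * hinv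
      rw [hdetm]
      have hcases : (m - 1) * (m + 1) * (m - q) * (m + q) = 0 := by linear_combination hb''
      have hL : ∀ u : 𝒪, m + (q : 𝒪) * m' = u →
          (X : 𝒪[X]) ^ 2 - C (m + (q : 𝒪) * m') * X + C ((q : 𝒪)) = X ^ 2 - C u * X + C ((q : 𝒪)) :=
        fun u hu => by rw [hu]
      have hR : m + (q : 𝒪) * m' = -((q : 𝒪) + 1) →
          (X : 𝒪[X]) ^ 2 - C (m + (q : 𝒪) * m') * X + C ((q : 𝒪))
            = X ^ 2 + C ((q : 𝒪) + 1) * X + C ((q : 𝒪)) :=
        fun hu => by rw [hu, map_neg, neg_mul, sub_neg_eq_add]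
      rcases mul_eq_zero.mp hcases with h | h
      · rcases mul_eq_zero.mp h with h | h
        · rcases mul_eq_zero.mp h with h | h
          · -- m = 1
            have hm1 : m = 1 := sub_eq_zero.mp h
            have hm'1 : m' = 1 := by rw [hm1, one_mul] at hinv; exact hinv
            exact Or.inl (hL _ (by rw [hm1, hm'1]; ring))
          · -- m = -1
            have hm1 : m = -1 := eq_neg_of_add_eq_zero_left h
            have hm'1 : m' = -1 := by
              rw [hm1] at hinv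
              linear_combination -hinv
            exact Or.inr (hR (by rw [hm1, hm'1]; ring))
        · -- m = q
          have hm1 : m = q := sub_eq_zero.mp h
          have hm'1 : (q : 𝒪) * m' = 1 := by rw [hm1] at hinv; exact hinv
          exact Or.inl (hL _ (by rw [hm'1, hm1]))
      · -- m = -q
        have hm1 : m = -q := eq_neg_of_add_eq_zero_left h
        have hm'1 : (q : 𝒪) * m' = -1 := by
          rw [hm1] at hinv
          linear_combination -hinv
        exact Or.inr (hR (by rw [hm'1, hm1]; ring))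

end main

end Fermat.Agent.S35
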