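import Mathlib
import Fermat.Agent.S41.Dict
import Fermat.Agent.S41.DegPoly
import Fermat.Agent.GalRep.DimExt
import Fermat.Agent.GalRep.DimAsm
import Fermat.Prelude.Def_CuspForm_Newforms

/-!
# TRACK 7 (NODE), package ALG35 (helper29), part A3: the eigen-lattice of a newform is `q`-new

Level `N * q`, `q` prime, `q ∤ N`; `g` a newform of level `N * q` (Prelude's sense: its good
eigensystem does not occur at a proper divisor of the level).

* `S35A_exists_lower` : if the eigencharacter of `g` away from `q` factors through the Hecke algebra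
  away from `q` of `parInt N`, then the good eigensystem of `g` occurs at level `N`;
* `S35A_eigen_poly`   : a vector of the eigen-module is an eigenvector of all Hecke polynomials;
* `S35A_newform_psi`  : for a newform `g` and a character `θ` of the Hecke polynomials with
  `θ P = 0 → λ_g P = 0`, the eigen-module of `θ` in `𝒪 ⊗ parInt (N q)` is killed by `ψ = (α_*, β_*)`;
* `S35A_mem_span`     : the kernel of `ψ` on `𝒪 ⊗ parInt (N q)` is spanned by the `1 ⊗ z`, `z ∈ ker ψ`.
-/

set_option autoImplicit false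
set_option linter.style.haveILetI false
set_option linter.unusedSectionVars false
open scoped TensorProduct
open CuspForm ModularCurve CongruenceSubgroup ModularFormClass ModularCurve.Period

namespace Fermat.Agent.S35

open Fermat.Agent.S16 Fermat.Agent.GalRep Fermat.Agent.S41

section lower

variable (N q : ℕ) [NeZero N] [NeZero (N * q)] [Fact q.Prime]

/-- the eigencharacter of a normalised eigenform kills the Hecke polynomials that act as zero on
the cusp forms. -/
theorem S35A_charC_ker {M : ℕ} [NeZero M] {g : CuspForm (Gamma0 M) 2}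
    (hg : g.IsNormalizedEigenform) (P : HeckeAlg) (hP : heckeEvalForms M 2 P = 0) :
    S41F_charC g P = 0 :=
  S41F_charC_eq_zero hg P ((S41F_heckeL_eq_zero_iff M P).mpr hP)

/-- **lowering the level**: if the eigencharacter of `g` (level `N q`) away from `q` kills the
Hecke polynomials away from `q` which act as zero on `parInt N`, then there is a normalised
eigenform of level `N` with the same eigenvalues away from `q`. -/
theorem S35A_exists_lower (g : CuspForm (Gamma0 (N * q)) 2)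
    (hker : ∀ t : S41D_R q, S41D_rho N q t = 0 → S41F_charC g (S41D_incR q t) = 0) :
    ∃ g' : CuspForm (Gamma0 N) 2, g'.IsNormalizedEigenform ∧
      ∀ ℓ : Nat.Primes, (ℓ : ℕ) ≠ q → qCoeff g' (ℓ : ℕ) = qCoeff g (ℓ : ℕ) := by
  haveI := finite_parInt N
  haveI := free_parInt N
  haveI : Module.Finite ℤ (HeckeAlg ⧸ RingHom.ker (GRD_heckeL N)) :=
    S41F_finite_quot (GRD_heckeL N)
  -- the two quotient rings
  have hle : RingHom.ker (S41D_rho N q)
      ≤ (RingHom.ker (GRD_heckeL N)).comap (S41D_incR q) := fun t ht => ht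
  let ι : (S41D_R q ⧸ RingHom.ker (S41D_rho N q)) →+* (HeckeAlg ⧸ RingHom.ker (GRD_heckeL N)) :=
    Ideal.quotientMap (RingHom.ker (GRD_heckeL N)) (S41D_incR q) hle
  have hι : Function.Injective ι := Ideal.quotientMap_injective' (fun t ht => ht)
  have hint : ι.IsIntegral := by
    intro b
    obtain ⟨p, hp, hpb⟩ := (IsIntegral.of_finite ℤ b : IsIntegral ℤ b)
    refine ⟨p.map (Int.castRingHom _), hp.map _, ?_⟩
    rw [Polynomial.eval₂_map]
    have hcomp : ι.comp (Int.castRingHom (S41D_R q ⧸ RingHom.ker (S41D_rho N q))) =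
        algebraMap ℤ (HeckeAlg ⧸ RingHom.ker (GRD_heckeL N)) := RingHom.ext_int _ _
    rw [hcomp]
    exact hpb
  let χA : (S41D_R q ⧸ RingHom.ker (S41D_rho N q)) →+* ℂ :=
    Ideal.Quotient.lift (RingHom.ker (S41D_rho N q)) ((S41F_charC g).comp (S41D_incR q))
      (fun t ht => hker t ht)
  obtain ⟨K'', hF, hA, hfd, χ', hχ'⟩ := GRD6_exists_lift ι hι hint χA
  letI := hF
  letI := hA
  haveI := hfd
  haveI : Algebra.IsIntegral ℂ K'' := Algebra.IsIntegral.of_finite ℂ K''
  have hbij : Function.Bijective (algebraMap ℂ K'') :=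
    IsAlgClosed.algebraMap_bijective_of_isIntegral
  let e : ℂ ≃+* K'' := RingEquiv.ofBijective (algebraMap ℂ K'') hbij
  let lam : HeckeAlg →+* ℂ :=
    (e.symm : K'' →+* ℂ).comp (χ'.comp (Ideal.Quotient.mk (RingHom.ker (GRD_heckeL N))))
  have hlam0 : ∀ P : HeckeAlg, heckeEvalForms N 2 P = 0 → lam P = 0 := by
    intro P hP
    have h1 : GRD_heckeL N P = 0 := (S41F_heckeL_eq_zero_iff N P).mpr hP
    have h2 : Ideal.Quotient.mk (RingHom.ker (GRD_heckeL N)) P = 0 :=
      Ideal.Quotient.eq_zero_iff_mem.mpr h1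
    show e.symm (χ' (Ideal.Quotient.mk (RingHom.ker (GRD_heckeL N)) P)) = 0
    rw [h2, map_zero, map_zero]
  have hlam1 : ∀ t : S41D_R q, lam (S41D_incR q t) = S41F_charC g (S41D_incR q t) := by
    intro t
    show e.symm (χ' (Ideal.Quotient.mk (RingHom.ker (GRD_heckeL N)) (S41D_incR q t))) = _
    have h1 : Ideal.Quotient.mk (RingHom.ker (GRD_heckeL N)) (S41D_incR q t)
        = ι (Ideal.Quotient.mk (RingHom.ker (S41D_rho N q)) t) := rfl
    rw [h1, hχ', RingEquiv.symm_apply_eq]
    rfl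
  obtain ⟨g', hg', hg'1⟩ := GRD_exists_eigenform N lam hlam0
  obtain ⟨hnorm, hcoef⟩ := S41F_isNormalizedEigenform lam hg' hg'1
  refine ⟨g', hnorm, fun ℓ hℓ => ?_⟩
  rw [hcoef ℓ, ← S41D_incR_X q ⟨ℓ, hℓ⟩, hlam1, S41D_incR_X, S41F_charC_heckeGen]

end lower

section eigen

/-- a vector of the eigen-module is an eigenvector of all Hecke polynomials. -/
theorem S35A_eigen_poly {𝒪 : Type} [CommRing 𝒪] (M : ℕ) [NeZero M] (θ : HeckeAlg →+* 𝒪)
    (x : 𝒪 ⊗[ℤ] ↥(parInt M)) (hx : x ∈ GR_eigen 𝒪 ↥(parInt M) (GR_hT M) (GRD_eig θ))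
    (P : HeckeAlg) : (GRD_heckeL M P).baseChange 𝒪 x = θ P • x := by
  have hgen : ∀ ℓ : Nat.Primes,
      (GRD_heckeL M (heckeGen ℓ)).baseChange 𝒪 x = θ (heckeGen ℓ) • x := by
    intro ℓ
    have h1 : GR_hT M (ℓ : ℕ) = GRD_heckeL M (heckeGen ℓ) := by
      unfold GR_hT
      rw [dif_pos ℓ.2]
      rfl
    have h2 : GRD_eig θ (ℓ : ℕ) = θ (heckeGen ℓ) := GRD_eig_prime θ ℓ.2
    have h3 := hx (ℓ : ℕ) ℓ.2
    rw [h1, h2] at h3
    exact h3
  induction P using MvPolynomial.induction_on with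
  | C z =>
    rw [show (MvPolynomial.C z : HeckeAlg) = (z : HeckeAlg) from eq_intCast _ z, map_intCast,
      map_intCast]
    have : ((z : Module.End ℤ ↥(parInt M))).baseChange 𝒪
        = (z : Module.End 𝒪 (𝒪 ⊗[ℤ] ↥(parInt M))) := by
      have := map_intCast (Module.End.baseChangeHom ℤ 𝒪 ↥(parInt M)) z
      exact this
    rw [this, Module.End.intCast_apply, Int.cast_smul_eq_zsmul]
  | add P Q hP hQ =>
    rw [map_add, LinearMap.baseChange_add, LinearMap.add_apply, hP, hQ, map_add, add_smul]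
  | mul_X P ℓ hP =>
    rw [map_mul, LinearMap.baseChange_mul, Module.End.mul_apply,
      show (MvPolynomial.X ℓ : HeckeAlg) = heckeGen ℓ from rfl, hgen ℓ, map_smul, hP, map_mul,
      smul_smul, mul_comm]

end eigen

section newform

variable (N q : ℕ) [NeZero N] [NeZero (N * q)] [Fact q.Prime]

/-- **A3**: the eigen-module of a newform of level `N q` is killed by `ψ = (α_*, β_*)`. -/
theorem S35A_newform_psi (hqN : ¬ q ∣ N) {g : CuspForm (Gamma0 (N * q)) 2} (hg : g.IsNewform)
    {𝒪 : Type} [CommRing 𝒪] [IsDomain 𝒪] (θ : HeckeAlg →+* 𝒪)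
    (hθ : ∀ P : HeckeAlg, θ P = 0 → S41F_charC g P = 0)
    (x : 𝒪 ⊗[ℤ] ↥(parInt (N * q)))
    (hx : x ∈ GR_eigen 𝒪 ↥(parInt (N * q)) (GR_hT (N * q)) (GRD_eig θ)) :
    (S41D_trA N q).baseChange 𝒪 x = 0 ∧ (S41D_trB N q).baseChange 𝒪 x = 0 := by
  haveI := finite_parInt N
  haveI := free_parInt N
  have hq : q.Prime := Fact.out
  -- the common argument
  have key : ∀ f : ↥(parInt (N * q)) →ₗ[ℤ] ↥(parInt N),
      (∀ t : S41D_R q, f ∘ₗ S41D_rho' N q t = S41D_rho N q t ∘ₗ f) →
      f.baseChange 𝒪 x = 0 := by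
    intro f hf
    by_contra hy
    have heig : ∀ t : S41D_R q,
        (S41D_rho N q t).baseChange 𝒪 (f.baseChange 𝒪 x)
          = θ (S41D_incR q t) • f.baseChange 𝒪 x := by
      intro t
      have h1 := S35A_eigen_poly (N * q) θ x hx (S41D_incR q t)
      have h2 : (S41D_rho N q t).baseChange 𝒪 ∘ₗ f.baseChange 𝒪
          = f.baseChange 𝒪 ∘ₗ (S41D_rho' N q t).baseChange 𝒪 := by
        rw [← LinearMap.baseChange_comp, ← LinearMap.baseChange_comp, hf t]
      have h3 := congrArg (fun φ : (𝒪 ⊗[ℤ] ↥(parInt (N * q))) →ₗ[𝒪] (𝒪 ⊗[ℤ] ↥(parInt N)) => φ x) h2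
      simp only [LinearMap.comp_apply] at h3
      rw [h3]
      show f.baseChange 𝒪 ((GRD_heckeL (N * q) (S41D_incR q t)).baseChange 𝒪 x) = _
      rw [h1, map_smul]
    have hker : ∀ t : S41D_R q, S41D_rho N q t = 0 → S41F_charC g (S41D_incR q t) = 0 := by
      intro t ht
      apply hθ
      have h1 := heig t
      rw [ht, LinearMap.baseChange_zero, LinearMap.zero_apply] at h1
      rcases smul_eq_zero.mp h1.symm with h2 | h2
      · exact h2
      · exact absurd h2 hy
    obtain ⟨g', hg', hcoef⟩ := S35A_exists_lower N q g hker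
    have hNq : N ≠ N * q := by
      intro h
      have h1 : N * 1 = N * q := by rw [mul_one]; exact h
      exact hq.one_lt.ne (Nat.eq_of_mul_eq_mul_left (Nat.pos_of_ne_zero (NeZero.ne N)) h1)
    refine hg.2 N (Dvd.intro q rfl) hNq ⟨g', hg', fun ℓ hℓ hℓN => ?_⟩
    refine hcoef ⟨ℓ, hℓ⟩ ?_
    rintro rfl
    exact hℓN (Dvd.intro_left N rfl)
  exact ⟨key _ (S41D_hA N q hqN), key _ (S41D_hB N q hqN)⟩

end newform

end Fermat.Agent.S35
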