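import Mathlib
import Fermat.Agent.S41.Dict
import Fermat.Agent.GalRep.DimExt
import Fermat.Agent.GalRep.DimAsm
import Fermat.Agent.GalRep.DimFinal
import Fermat.Agent.GalRep.CoefB
import Fermat.Agent.S35.New

/-!
# TRACK 7 (NODE), package ALG35 (helper29): the coefficient ring and the full eigencharacter

`S35A_exists_theta`: for a normalised eigenform `g` of level `M`, a character `chig` of the Hecke
algebra away from `S ⊇ primes(M)` with `chig T_ℓ = a_ℓ(g)` and `iota : chig.range →+* O'`, there
are a finite extension `O''` of `O'` (complete DVR, …) and a character `θ : HeckeAlg →+* O''` of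
the Hecke polynomials such that
* `θ P = 0 → λ_g P = 0` (`λ_g = S41F_charC g` the FULL eigencharacter of `g`),
* `θ (X_ℓ) = algebraMap (iota (chig T_ℓ))` at the good primes `ℓ ∉ S`,
* the eigen-lattice `GR_eigen O'' (parInt M) (GR_hT M) (GRD_eig θ)` has rank 2.
-/

set_option autoImplicit false
set_option linter.style.haveILetI false
set_option linter.unusedSectionVars false
open scoped TensorProduct
open CuspForm ModularCurve CongruenceSubgroup ModularFormClass ModularCurve.Period
open IsLocalRing

namespace Fermat.Agent.S35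

open Fermat.Agent.S16 Fermat.Agent.GalRep Fermat.Agent.S41

/-- a ring homomorphism from a domain which is integral over `ℤ` to a field of characteristic
zero is injective. -/
theorem S35A_injective_of_integral {R K : Type*} [CommRing R] [IsDomain R]
    [Algebra.IsIntegral ℤ R] [Field K] [CharZero K] (f : R →+* K) : Function.Injective f := by
  rw [RingHom.injective_iff_ker_eq_bot]
  apply Ideal.eq_bot_of_comap_eq_bot (R := ℤ)
  ext n
  rw [Ideal.mem_comap, RingHom.mem_ker, Ideal.mem_bot, eq_intCast, map_intCast, Int.cast_eq_zero]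

section range

variable {M : ℕ} [NeZero M] {g : CuspForm (Gamma0 M) 2}

/-- the values of a character of the Hecke algebra away from `S ⊇ primes(M)` with
`chig T_ℓ = a_ℓ(g)` lie in the ring of all eigenvalues of `g`. -/
theorem S35A_range_le (S : Set ℕ) (hMS : ∀ q : ℕ, q.Prime → q ∣ M → q ∈ S)
    (chig : CuspForm.heckeAlgebra M 2 S →+* ℂ)
    (hchig : ∀ (ℓ : ℕ) (hℓ : ℓ.Prime) (hℓM : ¬ ℓ ∣ M) (hℓS : ℓ ∉ S),
      chig (CuspForm.heckeAlgebra.T hℓ hℓM hℓS) = ModularFormClass.qCoeff g ℓ) :
    chig.range ≤ (S41F_charC g).range := by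
  rintro x ⟨⟨t, ht⟩, rfl⟩
  have key : ∀ (t : Module.End ℂ (CuspForm (Gamma0 M) 2))
      (ht : t ∈ Algebra.adjoin ℤ (CuspForm.heckeGenerators M 2 S)),
      chig ⟨t, ht⟩ ∈ (S41F_charC g).range := by
    intro t ht
    induction ht using Algebra.adjoin_induction with
    | mem T hT =>
      rcases hT with ⟨ℓ, hℓ, hℓN, hℓS, rfl⟩ | ⟨q, hqN, hq, hqS, rfl⟩
      · exact ⟨heckeGen (⟨ℓ, hℓ⟩ : Nat.Primes),
          (S41F_charC_heckeGen g (⟨ℓ, hℓ⟩ : Nat.Primes)).trans (hchig ℓ hℓ hℓN hℓS).symm⟩
      · exact absurd (hMS q hq hqN) hqS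
    | algebraMap r =>
      refine ⟨(r : HeckeAlg), ?_⟩
      rw [map_intCast]
      have : (⟨algebraMap ℤ _ r, Subalgebra.algebraMap_mem _ r⟩ : CuspForm.heckeAlgebra M 2 S)
          = ((r : ℤ) : CuspForm.heckeAlgebra M 2 S) := by
        apply Subtype.ext
        simp
      exact ((congrArg chig this).trans (map_intCast chig r)).symm
    | add T T' hT hT' h h' =>
      have : (⟨T + T', Subalgebra.add_mem _ hT hT'⟩ : CuspForm.heckeAlgebra M 2 S)
          = ⟨T, hT⟩ + ⟨T', hT'⟩ := rfl
      have h2 := congrArg chig this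
      rw [map_add] at h2
      exact h2 ▸ Subring.add_mem _ h h'
    | mul T T' hT hT' h h' =>
      have : (⟨T * T', Subalgebra.mul_mem _ hT hT'⟩ : CuspForm.heckeAlgebra M 2 S)
          = ⟨T, hT⟩ * ⟨T', hT'⟩ := rfl
      have h2 := congrArg chig this
      rw [map_mul] at h2
      exact h2 ▸ Subring.mul_mem _ h h'
  exact key t ht

end range

section coef

/-- **the coefficient ring**: an extension of `iota : A →+* O'` (`A ⊆ Rg ⊆ ℂ` subrings, `Rg` finite
over `ℤ`) to an injective `Φ : Rg →+* O''`, `O''` finite over `O'`. -/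
theorem S35A_exists_coef (O' : Type) [CommRing O'] [IsDomain O'] [IsDiscreteValuationRing O']
    [IsAdicComplete (maximalIdeal O') O'] [Finite (ResidueField O')] [CharZero O']
    (A Rg : Subring ℂ) (hle : A ≤ Rg) [Module.Finite ℤ Rg] (iota : A →+* O') :
    ∃ (O'' : Type) (_ : CommRing O'') (_ : IsDomain O'') (_ : IsDiscreteValuationRing O'')
      (_ : IsAdicComplete (maximalIdeal O'') O'') (_ : Finite (ResidueField O''))
      (_ : CharZero O'') (_ : Algebra O' O'') (_ : Module.Finite O' O'')
      (_ : IsLocalHom (algebraMap O' O'')),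
      Function.Injective (algebraMap O' O'') ∧
      ∃ Φ : Rg →+* O'', Function.Injective Φ ∧
        ∀ a : A, Φ (Subring.inclusion hle a) = algebraMap O' O'' (iota a) := by
  haveI : Algebra.IsIntegral ℤ Rg := Algebra.IsIntegral.of_finite ℤ Rg
  have hint : (Subring.inclusion hle).IsIntegral := by
    intro b
    obtain ⟨p, hp, hpb⟩ := (Algebra.IsIntegral.isIntegral (R := ℤ) b : IsIntegral ℤ b)
    refine ⟨p.map (Int.castRingHom _), hp.map _, ?_⟩
    rw [Polynomial.eval₂_map]
    have hcomp : (Subring.inclusion hle).comp (Int.castRingHom A) = algebraMap ℤ Rg :=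
      RingHom.ext_int _ _
    rw [hcomp]
    exact hpb
  obtain ⟨K'', hF, hA, hfd, χ', hχ'⟩ := GRD6_exists_lift (Subring.inclusion hle)
    (Subring.inclusion_injective hle) hint
    ((algebraMap O' (FractionRing O')).comp iota)
  letI := hF
  letI := hA
  haveI := hfd
  haveI : CharZero K'' :=
    charZero_of_injective_algebraMap (algebraMap (FractionRing O') K'').injective
  letI : Algebra O' K'' :=
    ((algebraMap (FractionRing O') K'').comp (algebraMap O' (FractionRing O'))).toAlgebra
  haveI : IsScalarTower O' (FractionRing O') K'' := IsScalarTower.of_algebraMap_eq fun _ => rfl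
  obtain ⟨O'', i1, i2, i3, i4, i5, i6, i7, i8, i9, i10, i11, i12, i13, hinj⟩ :=
    GR_coefB O' (FractionRing O') K''
  have hinjK : Function.Injective (algebraMap O'' K'') := IsFractionRing.injective O'' K''
  have hintχ : ∀ r : Rg, IsIntegral O' (χ' r) := fun r =>
    ((Algebra.IsIntegral.isIntegral (R := ℤ) r).map χ'.toIntAlgHom).tower_top
  have hex : ∀ r : Rg, ∃ c : O'', algebraMap O'' K'' c = χ' r := fun r =>
    (IsIntegralClosure.isIntegral_iff (A := O'')).mp (hintχ r)
  choose φ hφ using hex
  let Φ : Rg →+* O'' :=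
    { toFun := φ
      map_one' := hinjK (by rw [hφ, map_one, map_one])
      map_mul' := fun x y => hinjK (by rw [hφ, map_mul, map_mul, hφ, hφ])
      map_zero' := hinjK (by rw [hφ, map_zero, map_zero])
      map_add' := fun x y => hinjK (by rw [hφ, map_add, map_add, hφ, hφ]) }
  have hΦ : ∀ r, algebraMap O'' K'' (Φ r) = χ' r := hφ
  refine ⟨O'', i1, i2, i3, i4, i5, i6, i7, i8, i9, hinj, Φ, ?_, ?_⟩
  · intro x y hxy
    apply S35A_injective_of_integral χ'
    rw [← hΦ, ← hΦ, hxy]
  · intro a
    apply hinjK
    rw [hΦ, hχ', ← IsScalarTower.algebraMap_apply O' O'' K'']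
    rfl

end coef

section rank

theorem S35A_lift_comp {H : Type} [CommRing H] (lam : H →+* ℂ)
    (hsub : Function.Injective (lam.range.subtype)) :
    (IsFractionRing.lift hsub : FractionRing lam.range →+* ℂ).comp
      ((algebraMap lam.range (FractionRing lam.range)).comp lam.rangeRestrict) = lam := by
  refine RingHom.ext fun P => ?_
  rw [RingHom.comp_apply, RingHom.comp_apply, IsFractionRing.lift_algebraMap]
  rfl

theorem S35A_lift_comp' {H : Type} [CommRing H] (lam : H →+* ℂ)
    {O'' : Type} [CommRing O''] [IsDomain O'']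
    (Φ : lam.range →+* O'')
    (hΦK : Function.Injective ((algebraMap O'' (FractionRing O'')).comp Φ)) :
    (IsFractionRing.lift hΦK : FractionRing lam.range →+* FractionRing O'').comp
      ((algebraMap lam.range (FractionRing lam.range)).comp lam.rangeRestrict)
      = (algebraMap O'' (FractionRing O'')).comp (Φ.comp lam.rangeRestrict) := by
  refine RingHom.ext fun P => ?_
  rw [RingHom.comp_apply, RingHom.comp_apply, IsFractionRing.lift_algebraMap]
  rfl

/-- abstract form of the rank computation: descent to the fraction field of the ring of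
eigenvalues and base change to `ℂ` and to `Frac O''`. -/
theorem S35A_rank_abs (L : Type) [AddCommGroup L] [Module.Free ℤ L] [Module.Finite ℤ L]
    (T : ℕ → Module.End ℤ L) (lam : HeckeAlg →+* ℂ)
    (hC2 : Module.finrank ℂ (GR_eigen ℂ L T (GRD_eig lam)) = 2)
    {O'' : Type} [CommRing O''] [IsDomain O''] [IsPrincipalIdealRing O'']
    (Φ : lam.range →+* O'') (hΦ : Function.Injective Φ) :
    Module.finrank O'' (GR_eigen O'' L T (GRD_eig (Φ.comp lam.rangeRestrict))) = 2 := by
  have hΦK : Function.Injective ((algebraMap O'' (FractionRing O'')).comp Φ) :=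
    (IsFractionRing.injective O'' (FractionRing O'')).comp hΦ
  have hsub : Function.Injective (lam.range.subtype) := Subtype.val_injective
  have hcompC := S35A_lift_comp lam hsub
  have hcompK := S35A_lift_comp' lam Φ hΦK
  have h1 := @GRD_finrank_eigen_field (FractionRing lam.range) ℂ _ _
    (IsFractionRing.lift hsub : FractionRing lam.range →+* ℂ).toAlgebra
    L _ _ _ T (GRD_eig ((algebraMap lam.range (FractionRing lam.range)).comp lam.rangeRestrict))
  have h2 := @GRD_finrank_eigen_field (FractionRing lam.range) (FractionRing O'') _ _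
    (IsFractionRing.lift hΦK : FractionRing lam.range →+* FractionRing O'').toAlgebra
    L _ _ _ T (GRD_eig ((algebraMap lam.range (FractionRing lam.range)).comp lam.rangeRestrict))
  have hC : (fun ℓ => (IsFractionRing.lift hsub : FractionRing lam.range →+* ℂ)
      (GRD_eig ((algebraMap lam.range (FractionRing lam.range)).comp lam.rangeRestrict) ℓ))
      = GRD_eig lam := by
    funext ℓ
    rw [GRD_eig_map, hcompC]
  have hK : (fun ℓ => (IsFractionRing.lift hΦK : FractionRing lam.range →+* FractionRing O'')
      (GRD_eig ((algebraMap lam.range (FractionRing lam.range)).comp lam.rangeRestrict) ℓ))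
      = fun ℓ => algebraMap O'' (FractionRing O'') (GRD_eig (Φ.comp lam.rangeRestrict) ℓ) := by
    funext ℓ
    rw [GRD_eig_map, GRD_eig_map, hcompK]
  have hLat := GRD_lattice O'' (FractionRing O'') L T (GRD_eig (Φ.comp lam.rangeRestrict))
  rw [hLat, ← hK]
  refine h2.trans (h1.symm.trans ?_)
  have : (fun ℓ => @algebraMap (FractionRing lam.range) ℂ _ _
      (IsFractionRing.lift hsub : FractionRing lam.range →+* ℂ).toAlgebra
      (GRD_eig ((algebraMap lam.range (FractionRing lam.range)).comp lam.rangeRestrict) ℓ))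
      = GRD_eig lam := hC
  rw [this]
  exact hC2

variable {M : ℕ} [NeZero M] {g : CuspForm (Gamma0 M) 2}

/-- the ring of eigenvalues of a normalised eigenform is a finitely generated `ℤ`-module. -/
theorem S35A_range_finite (hg : g.IsNormalizedEigenform) :
    Module.Finite ℤ (S41F_charC g).range := by
  haveI := free_parInt M
  haveI := finite_parInt M
  haveI : Module.Finite ℤ (HeckeAlg ⧸ RingHom.ker (GRD_heckeL M)) :=
    S41F_finite_quot (GRD_heckeL M)
  let f : (HeckeAlg ⧸ RingHom.ker (GRD_heckeL M)) →+* (S41F_charC g).range :=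
    Ideal.Quotient.lift (RingHom.ker (GRD_heckeL M)) (S41F_charC g).rangeRestrict
      (fun P hP => Subtype.ext (S41F_charC_eq_zero hg P (RingHom.mem_ker.mp hP)))
  have hf : Function.Surjective f := by
    intro x
    obtain ⟨P, hP⟩ := (S41F_charC g).rangeRestrict_surjective x
    exact ⟨Ideal.Quotient.mk _ P, hP⟩
  exact Module.Finite.of_surjective f.toIntAlgHom.toLinearMap hf

/-- **rank 2**: the eigen-lattice of the full eigencharacter of `g`, transported to `O''` by an
injective ring homomorphism, has rank 2. -/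
theorem S35A_rank (hg : g.IsNormalizedEigenform)
    {O'' : Type} [CommRing O''] [IsDomain O''] [IsPrincipalIdealRing O'']
    (Φ : (S41F_charC g).range →+* O'') (hΦ : Function.Injective Φ) :
    Module.finrank O'' (GR_eigen O'' ↥(parInt M) (GR_hT M)
      (GRD_eig (Φ.comp (S41F_charC g).rangeRestrict))) = 2 :=
  haveI := free_parInt M
  haveI := finite_parInt M
  S35A_rank_abs ↥(parInt M) (GR_hT M) (S41F_charC g)
    (GRD_c2 M (S41F_charC g) (fun P hP => S35A_charC_ker hg P hP)) Φ hΦ

end rank

end Fermat.Agent.S35
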