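import Mathlib
import Fermat.Agent.GalRep.AdicRep

/-!
# TRACK 7 (NODE), package ALG35 (helper29), part A2: a quartic relation passes to the limit

`S35A_Q q r = (r² − q²)(r² − 1)` in any ring.  If, for a class `z : L` and `σ : G_ℚ`, the
endomorphism `S35A_Q q (𝒯.r k σ)` kills `1 ⊗ z` at every finite level `k` of a tower `𝒯`, then
`S35A_Q q (GRA_R e 𝒯 hp σ)` kills `1 ⊗ z` in `𝒪 ⊗ L` (`S35A_limit`).
-/

set_option autoImplicit false
open scoped TensorProduct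
open Module IsLocalRing

namespace Fermat.Agent.S35

open Fermat.Agent.GalRep

/-- the quartic expression `(r² − q²)(r² − 1)`. -/
def S35A_Q {A : Type*} [Ring A] (q : ℕ) (r : A) : A := (r * r - (q : A) ^ 2) * (r * r - 1)

theorem S35A_Q_map {A B F : Type*} [Ring A] [Ring B] [FunLike F A B] [RingHomClass F A B]
    (f : F) (q : ℕ) (r : A) : f (S35A_Q q r) = S35A_Q q (f r) := by
  simp only [S35A_Q, map_mul, map_sub, map_pow, map_natCast, map_one]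

theorem S35A_Q_apply {R M : Type*} [CommRing R] [AddCommGroup M] [Module R M]
    (f : Module.End R M) (q : ℕ) (x : M) :
    S35A_Q q f x = f (f (f (f x))) - f (f x) - ((q ^ 2) • f (f x) - (q ^ 2) • x) := by
  unfold S35A_Q
  rw [← Nat.cast_pow]
  simp only [Module.End.mul_apply, LinearMap.sub_apply, Module.End.one_apply,
    Module.End.natCast_apply, map_sub]
  abel

theorem S35A_Q_restrict {R M : Type*} [CommRing R] [AddCommGroup M] [Module R M]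
    (W : Submodule R M) (f : Module.End R M) (hf : ∀ x ∈ W, f x ∈ W) (q : ℕ) (x : W) :
    ((S35A_Q q (f.restrict hf) x : W) : M) = S35A_Q q f (x : M) := by
  rw [S35A_Q_apply, S35A_Q_apply]
  simp only [Submodule.coe_sub, LinearMap.coe_restrict_apply, Submodule.coe_smul_of_tower]

section tower

variable {p N : ℕ} {L : Type} [AddCommGroup L] {T : ℕ → Module.End ℤ L}
  {ι : Type} [Fintype ι] [DecidableEq ι] (e : Basis ι ℤ L) (𝒯 : GR_Tower p N L T)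

omit [Fintype ι] [DecidableEq ι] in
/-- the coordinates of `1 ⊗ z`. -/
theorem S35A_repr_one_tmul (R : Type) [CommRing R] (z : L) :
    ((GRA_b e R).repr ((1 : R) ⊗ₜ[ℤ] z) : ι → R) = fun i => ((e.repr z i : ℤ) : R) := by
  funext i
  rw [Algebra.TensorProduct.basis_repr_tmul]
  simp

/-- the relation for the matrices at level `k`. -/
theorem S35A_Ak_rel (q k : ℕ) (σ : GQ) (z : L)
    (h : S35A_Q q (𝒯.r k σ) ((1 : ZMod (p ^ k)) ⊗ₜ[ℤ] z) = 0) :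
    (S35A_Q q (GRA_Ak e 𝒯 k σ)).mulVec (fun i => ((e.repr z i : ℤ) : ZMod (p ^ k))) = 0 := by
  have h1 : S35A_Q q (GRA_Ak e 𝒯 k σ)
      = LinearMap.toMatrix (GRA_b e (ZMod (p ^ k))) (GRA_b e (ZMod (p ^ k)))
          (S35A_Q q (𝒯.r k σ)) := by
    have := S35A_Q_map (LinearMap.toMatrixAlgEquiv (GRA_b e (ZMod (p ^ k)))) q (𝒯.r k σ)
    exact this.symm
  rw [h1, ← S35A_repr_one_tmul e (ZMod (p ^ k)) z, LinearMap.toMatrix_mulVec_repr, h]
  simp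

/-- the relation for the matrices over `GRA_Z p`. -/
theorem S35A_A_rel (q : ℕ) (σ : GQ) (z : L)
    (h : ∀ k, S35A_Q q (𝒯.r k σ) ((1 : ZMod (p ^ k)) ⊗ₜ[ℤ] z) = 0) :
    (S35A_Q q (GRA_A e 𝒯 σ)).mulVec (fun i => ((e.repr z i : ℤ) : GRA_Z p)) = 0 := by
  funext i
  apply GRA_Z_ext
  intro k
  have h1 := RingHom.map_mulVec (GRA_pr p k) (S35A_Q q (GRA_A e 𝒯 σ))
    (fun i => ((e.repr z i : ℤ) : GRA_Z p)) i
  have h2 : (S35A_Q q (GRA_A e 𝒯 σ)).map (GRA_pr p k) = S35A_Q q (GRA_Ak e 𝒯 k σ) := by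
    have := S35A_Q_map (GRA_pr p k).mapMatrix q (GRA_A e 𝒯 σ)
    rw [RingHom.mapMatrix_apply, RingHom.mapMatrix_apply, GRA_A_map_pr] at this
    exact this
  have h3 : (⇑(GRA_pr p k) ∘ fun i => ((e.repr z i : ℤ) : GRA_Z p))
      = fun i => ((e.repr z i : ℤ) : ZMod (p ^ k)) := by
    funext j
    simp
  rw [h2, h3, S35A_Ak_rel e 𝒯 q k σ z (h k)] at h1
  rw [Pi.zero_apply, map_zero]
  exact h1

end tower

section limit

variable {p N : ℕ} {L : Type} [AddCommGroup L] {T : ℕ → Module.End ℤ L}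
  {ι : Type} [Fintype ι] [DecidableEq ι] (e : Basis ι ℤ L) (𝒯 : GR_Tower p N L T)
  {𝒪 : Type} [CommRing 𝒪] [IsLocalRing 𝒪] [IsAdicComplete (maximalIdeal 𝒪) 𝒪]
  (hp : (p : 𝒪) ∈ maximalIdeal 𝒪)

/-- the relation for the matrices over `𝒪`. -/
theorem S35A_B_rel (q : ℕ) (σ : GQ) (z : L)
    (h : ∀ k, S35A_Q q (𝒯.r k σ) ((1 : ZMod (p ^ k)) ⊗ₜ[ℤ] z) = 0) :
    (S35A_Q q (GRA_B e 𝒯 hp σ)).mulVec (fun i => ((e.repr z i : ℤ) : 𝒪)) = 0 := by
  funext i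
  have h1 := RingHom.map_mulVec (GRA_lam p 𝒪 hp) (S35A_Q q (GRA_A e 𝒯 σ))
    (fun i => ((e.repr z i : ℤ) : GRA_Z p)) i
  have h2 : (S35A_Q q (GRA_A e 𝒯 σ)).map (GRA_lam p 𝒪 hp) = S35A_Q q (GRA_B e 𝒯 hp σ) := by
    have := S35A_Q_map (GRA_lam p 𝒪 hp).mapMatrix q (GRA_A e 𝒯 σ)
    rw [RingHom.mapMatrix_apply, RingHom.mapMatrix_apply] at this
    exact this
  have h3 : (⇑(GRA_lam p 𝒪 hp) ∘ fun i => ((e.repr z i : ℤ) : GRA_Z p))
      = fun i => ((e.repr z i : ℤ) : 𝒪) := by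
    funext j
    simp
  rw [h2, h3, S35A_A_rel e 𝒯 q σ z h] at h1
  rw [← h1, Pi.zero_apply, map_zero, Pi.zero_apply]

/-- **A2**: the quartic relation at `1 ⊗ z` passes to the limit representation. -/
theorem S35A_limit (q : ℕ) (σ : GQ) (z : L)
    (h : ∀ k, S35A_Q q (𝒯.r k σ) ((1 : ZMod (p ^ k)) ⊗ₜ[ℤ] z) = 0) :
    S35A_Q q (GRA_R e 𝒯 hp σ) ((1 : 𝒪) ⊗ₜ[ℤ] z) = 0 := by
  have h1 : S35A_Q q (GRA_R e 𝒯 hp σ)
      = Matrix.toLin (GRA_b e 𝒪) (GRA_b e 𝒪) (S35A_Q q (GRA_B e 𝒯 hp σ)) := by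
    have := S35A_Q_map (Matrix.toLinAlgEquiv (GRA_b e 𝒪)) q (GRA_B e 𝒯 hp σ)
    exact this.symm
  rw [h1, Matrix.toLin_apply, S35A_repr_one_tmul e 𝒪 z, S35A_B_rel e 𝒯 hp q σ z h]
  simp

end limit

end Fermat.Agent.S35
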