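import Mathlib
import Fermat.Agent.GalRep.TwrFinal
import Fermat.Agent.S35.Iface
import Fermat.Agent.S35.Limit

/-!
# TRACK 7 (NODE), package ALG35 (helper29), part A1: the tower with the quartic relation

* `S35A_tower` : the tower of `GalRep/TwrFinal.lean` as a DEFINITION (`r k = GRT_r hK (p ^ k)`);
* `S35A_r_rel` : (FROB4-K) ⇒ `S35A_Q q (GRT_r hK n σ)` kills `1 ⊗ z` for `z` in the `q`-new part
  `S41D_B N q` of `parInt (N * q)` and every Frobenius lift `σ` at `q` (`q ∤ n`);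
* `S35A_tower_rel` : the same for the levels of `S35A_tower`.
-/

set_option autoImplicit false

open ModularCurve AlgebraicCurve CongruenceSubgroup
open scoped TensorProduct

namespace Fermat.Agent.S35

open Fermat.Agent.GalRep Fermat.Agent.S16 Fermat.Agent.S41 Fermat.Agent.S24

/-- abstract transport of the quartic relation through an isomorphism. -/
theorem S35A_abs_rel {R M X : Type*} [CommRing R] [AddCommGroup M] [Module R M]
    [AddCommGroup X] [Module R X] (e : M ≃ₗ[R] X) (r : Module.End R M) (a : Module.End R X)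
    (hr : ∀ x, e (r x) = a (e x)) (q : ℕ) (x : M)
    (h : a (a (a (a (e x)))) + (q ^ 2) • e x = (1 + q ^ 2) • a (a (e x))) :
    S35A_Q q r x = 0 := by
  apply e.injective
  have h1 : S35A_Q q r x = r (r (r (r x))) - r (r x) - ((q ^ 2) • r (r x) - (q ^ 2) • x) := by
    unfold S35A_Q
    rw [← Nat.cast_pow]
    simp only [Module.End.mul_apply, LinearMap.sub_apply, Module.End.one_apply,
      Module.End.natCast_apply, map_sub]
    abel
  rw [h1, map_zero, map_sub, map_sub, map_sub, map_nsmul, map_nsmul]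
  simp only [hr]
  rw [eq_sub_of_add_eq h, add_smul, one_smul]
  abel

section rel

variable (N q : ℕ) [NeZero N] [NeZero q] [NeZero (N * q)] [Fact q.Prime]

/-- **(FROB4) on the elliptic characters**. -/
theorem S35A_act_rel (hK : GR_KappaStmt (N * q)) (hF : S35A_Frob4K N q) {n : ℕ} (hn : 0 < n)
    (hqn : ¬ q ∣ n) (σ : GQ) (hσ : GR_IsFrob q σ) (z : ↥(parInt (N * q)))
    (hz : z ∈ S41D_B N q) :
    GRT_act hK hn σ (GRT_act hK hn σ (GRT_act hK hn σ (GRT_act hK hn σ (GRT_red (N * q) n z))))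
        + (q ^ 2) • GRT_red (N * q) n z
      = (1 + q ^ 2) • GRT_act hK hn σ (GRT_act hK hn σ (GRT_red (N * q) n z)) := by
  set χ := GRT_red (N * q) n z with hχdef
  obtain ⟨f, hf, hχ⟩ := hK.surj n hn χ.1 χ.2
  have hgal : ∀ g : ↥(modularFunctionFieldBar (N * q)), g ≠ 0 → GR_gal (N * q) σ g ≠ 0 :=
    fun g hg => (map_ne_zero_iff (GR_gal (N * q) σ) (GR_gal (N * q) σ).injective).mpr hg
  have hf1 := hK.gal n σ f hf
  have hf2 := hK.gal n σ _ hf1
  have hf3 := hK.gal n σ _ hf2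
  have c1 := GRT_act_spec hK hn σ χ hf hχ
  have c2 := GRT_act_spec hK hn σ _ hf1 c1
  have c3 := GRT_act_spec hK hn σ _ hf2 c2
  have c4 := GRT_act_spec hK hn σ _ hf3 c3
  have ht := hF n hn hqn σ hσ f z hz hf hχ
  rw [mul_right_comm] at ht
  have hg0 : (GR_gal (N * q) σ (GR_gal (N * q) σ f)) ^ (1 + q ^ 2) ≠ 0 := pow_ne_zero _ hf2.1
  have k1 := GRT_kchar_of_isTriv_mul hK hn ht hg0 (GRT_kchar_pow hK hn c2 (1 + q ^ 2))
  have k2 := hK.mul n _ _ _ _ c4 (GRT_kchar_pow hK hn hχ (q ^ 2))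
  have hne : GR_gal (N * q) σ (GR_gal (N * q) σ (GR_gal (N * q) σ (GR_gal (N * q) σ f)))
      * f ^ (q ^ 2) ≠ 0 :=
    mul_ne_zero (hgal _ (hgal _ (hgal _ (hgal _ hf.1)))) (pow_ne_zero _ hf.1)
  apply Subtype.ext
  have := hK.uniq n hn _ _ _ hne k2 k1
  rw [Submodule.coe_add, Submodule.coe_smul_of_tower, Submodule.coe_smul_of_tower]
  exact this

/-- **(FROB4) at level `n`**: the quartic kills the reduction of the `q`-new classes. -/
theorem S35A_r_rel (hK : GR_KappaStmt (N * q)) (hF : S35A_Frob4K N q) (n : ℕ) [NeZero n]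
    (hqn : ¬ q ∣ n) (σ : GQ) (hσ : GR_IsFrob q σ) (z : ↥(parInt (N * q)))
    (hz : z ∈ S41D_B N q) :
    S35A_Q q (GRT_r hK n σ) ((1 : ZMod n) ⊗ₜ[ℤ] z) = 0 := by
  refine S35A_abs_rel (GRT_iso (N * q) n) (GRT_r hK n σ)
    (GRT_act hK (Nat.pos_of_ne_zero (NeZero.ne n)) σ) (GRT_iso_r hK n σ) q _ ?_
  rw [GRT_iso_one_tmul]
  exact S35A_act_rel N q hK hF _ hqn σ hσ z hz

end rel

/-! ### the tower as a definition -/

section tower

variable (N : ℕ) [NeZero N] (p : ℕ) [hp : Fact p.Prime]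

/-- the tower of `GR_tower`, as a definition. -/
noncomputable def S35A_tower (hK : GR_KappaStmt N)
    (hH : ∀ (ℓ : ℕ) [Fact ℓ.Prime], Nonempty (GR_HeckeES N ℓ)) (hU : GR_UnramStmt N)
    (hFin : GR_FinStmt N) : GR_Tower p N ↥(parInt N) (GR_hT N) where
  r := fun k => @GRT_r N _ hK (p ^ k) ⟨pow_ne_zero k hp.out.ne_zero⟩
  compat := by
    intro k σ x
    exact @GRT_r_compat N _ hK (p ^ k) (p ^ (k + 1)) ⟨pow_ne_zero k hp.out.ne_zero⟩
      ⟨pow_ne_zero (k + 1) hp.out.ne_zero⟩ (pow_dvd_pow p (Nat.le_succ k)) σ x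
  fin := by
    intro k
    obtain ⟨L, hL, h⟩ := hFin (p ^ k) (pow_pos hp.out.pos k)
    refine ⟨L, hL, fun σ hσ => ?_⟩
    exact @GRT_r_eq_one N _ hK (p ^ k) ⟨pow_ne_zero k hp.out.ne_zero⟩ σ
      (GRT_act_eq_one hK _ σ (h σ hσ))
  hecke := by
    intro k σ ℓ
    exact @GRT_r_commute N _ hK hH (p ^ k) ⟨pow_ne_zero k hp.out.ne_zero⟩ σ ℓ
  es := by
    intro k ℓ hℓ hℓN hℓp σ hσ
    have : Fact ℓ.Prime := ⟨hℓ⟩
    obtain ⟨H⟩ := hH ℓ
    have hnd : ¬ ℓ ∣ p ^ k := fun hdvd =>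
      hℓp ((Nat.prime_dvd_prime_iff_eq hℓ hp.out).mp (hℓ.dvd_of_dvd_pow hdvd))
    exact @GRT_r_es N _ hK (p ^ k) ⟨pow_ne_zero k hp.out.ne_zero⟩ ℓ _ H hℓN hnd σ hσ
  unram := by
    intro k q hq hqN hqp P hP τ hτ
    have hnd : ¬ q ∣ p ^ k := fun hdvd =>
      hqp ((Nat.prime_dvd_prime_iff_eq hq hp.out).mp (hq.dvd_of_dvd_pow hdvd))
    exact @GRT_r_eq_one N _ hK (p ^ k) ⟨pow_ne_zero k hp.out.ne_zero⟩ τ
      (GRT_act_eq_one hK _ τ (hU (p ^ k) q (pow_pos hp.out.pos k) hq hqN hnd P hP τ hτ))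

theorem S35A_tower_r (hK : GR_KappaStmt N)
    (hH : ∀ (ℓ : ℕ) [Fact ℓ.Prime], Nonempty (GR_HeckeES N ℓ)) (hU : GR_UnramStmt N)
    (hFin : GR_FinStmt N) (k : ℕ) :
    (S35A_tower N p hK hH hU hFin).r k
      = @GRT_r N _ hK (p ^ k) ⟨pow_ne_zero k hp.out.ne_zero⟩ := rfl

end tower

section towerrel

variable (N q : ℕ) [NeZero N] [NeZero q] [NeZero (N * q)] [Fact q.Prime]
  (p : ℕ) [hp : Fact p.Prime]

/-- **A1**: the quartic relation at every level of the tower. -/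
theorem S35A_tower_rel (hK : GR_KappaStmt (N * q))
    (hH : ∀ (ℓ : ℕ) [Fact ℓ.Prime], Nonempty (GR_HeckeES (N * q) ℓ))
    (hU : GR_UnramStmt (N * q)) (hFin : GR_FinStmt (N * q)) (hF : S35A_Frob4K N q)
    (hqp : q ≠ p) (σ : GQ) (hσ : GR_IsFrob q σ) (z : ↥(parInt (N * q)))
    (hz : z ∈ S41D_B N q) (k : ℕ) :
    S35A_Q q ((S35A_tower (N * q) p hK hH hU hFin).r k σ) ((1 : ZMod (p ^ k)) ⊗ₜ[ℤ] z) = 0 := by
  have hnd : ¬ q ∣ p ^ k := fun hdvd =>
    hqp ((Nat.prime_dvd_prime_iff_eq (Fact.out : q.Prime) hp.out).mp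
      ((Fact.out : q.Prime).dvd_of_dvd_pow hdvd))
  rw [S35A_tower_r]
  exact @S35A_r_rel N q _ _ _ _ hK hF (p ^ k) ⟨pow_ne_zero k hp.out.ne_zero⟩ hnd σ hσ z hz

end towerrel

end Fermat.Agent.S35
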