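import Mathlib
import Fermat.Agent.GalRep.Adic
import Fermat.Agent.S35.Tower
import Fermat.Agent.S35.New

/-!
# TRACK 7 (NODE), package ALG35 (helper29): the quartic relation on the eigen-lattice of a newform

`S35A_quartic_datum`: for a newform `g` of level `N q` (`q ∤ N`, `q ≠ p`), a character `θ` of the
Hecke polynomials with values in `𝒪` through which the eigencharacter of `g` factors injectively,
and a Frobenius lift `σ` at `q`, the quartic `S35A_Q q (ρ σ) = (ρ(σ)² − q²)(ρ(σ)² − 1)` vanishes on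
the eigen-lattice `GR_eigen 𝒪 (parInt (N q)) (GR_hT (N q)) (GRD_eig θ)` of the tower `S35A_tower`
(from (FROB4-K)).
-/

set_option autoImplicit false
set_option linter.style.haveILetI false
set_option linter.unusedSectionVars false
open scoped TensorProduct
open CuspForm ModularCurve CongruenceSubgroup ModularFormClass ModularCurve.Period
open Module IsLocalRing

namespace Fermat.Agent.S35

open Fermat.Agent.S16 Fermat.Agent.GalRep Fermat.Agent.S41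

section flat

variable {𝒪 : Type} [CommRing 𝒪] {L L' : Type} [AddCommGroup L] [AddCommGroup L']

/-- the base change of a pair of maps vanishes where both components vanish. -/
theorem S35A_baseChange_prod (f g : L' →ₗ[ℤ] L) (x : 𝒪 ⊗[ℤ] L')
    (hf : f.baseChange 𝒪 x = 0) (hg : g.baseChange 𝒪 x = 0) :
    (f.prod g).baseChange 𝒪 x = 0 := by
  apply (TensorProduct.prodRight ℤ 𝒪 𝒪 L L).injective
  have key : ∀ y : 𝒪 ⊗[ℤ] L', TensorProduct.prodRight ℤ 𝒪 𝒪 L L ((f.prod g).baseChange 𝒪 y)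
      = (f.baseChange 𝒪 y, g.baseChange 𝒪 y) := by
    intro y
    induction y using TensorProduct.induction_on with
    | zero =>
      rw [map_zero, map_zero, map_zero, map_zero]
      rfl
    | tmul a l =>
      rw [LinearMap.baseChange_tmul, TensorProduct.prodRight_tmul, LinearMap.baseChange_tmul,
        LinearMap.baseChange_tmul]
      rfl
    | add y₁ y₂ h₁ h₂ =>
      rw [map_add, map_add, h₁, h₂, map_add, map_add]
      rfl
  rw [key, hf, hg, map_zero]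
  rfl

/-- the kernel of a base-changed map is spanned by the `1 ⊗ z`, `z` in the kernel. -/
theorem S35A_ker_span [Module.Flat ℤ 𝒪] {L'' : Type} [AddCommGroup L''] (ψ : L' →ₗ[ℤ] L'')
    (x : 𝒪 ⊗[ℤ] L') (hx : ψ.baseChange 𝒪 x = 0) :
    x ∈ Submodule.span 𝒪 {y : 𝒪 ⊗[ℤ] L' | ∃ z ∈ LinearMap.ker ψ, y = (1 : 𝒪) ⊗ₜ[ℤ] z} := by
  have hex := Module.Flat.lTensor_exact 𝒪 (LinearMap.exact_subtype_ker_map ψ)
  have hx' : LinearMap.lTensor 𝒪 ψ x = 0 := by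
    rw [← LinearMap.baseChange_eq_ltensor (A := 𝒪)]
    exact hx
  obtain ⟨w, hw⟩ := (hex x).mp hx'
  rw [← hw]
  clear hw hx hx'
  induction w using TensorProduct.induction_on with
  | zero =>
    rw [map_zero]
    exact Submodule.zero_mem _
  | tmul a z =>
    rw [LinearMap.lTensor_tmul]
    have : a ⊗ₜ[ℤ] ((LinearMap.ker ψ).subtype z) = a • ((1 : 𝒪) ⊗ₜ[ℤ] (z : L')) := by
      rw [TensorProduct.smul_tmul', smul_eq_mul, mul_one]
      rfl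
    rw [this]
    exact Submodule.smul_mem _ _ (Submodule.subset_span ⟨z.1, z.2, rfl⟩)
  | add w₁ w₂ h₁ h₂ =>
    rw [map_add]
    exact Submodule.add_mem _ h₁ h₂

end flat

section abs

variable {p N : ℕ} {L : Type} [AddCommGroup L] {T : ℕ → Module.End ℤ L}
  {ι : Type} [Fintype ι] [DecidableEq ι] (e : Basis ι ℤ L) (𝒯 : GR_Tower p N L T)
  {𝒪 : Type} [CommRing 𝒪] [IsLocalRing 𝒪] [IsAdicComplete (maximalIdeal 𝒪) 𝒪]
  (hp : (p : 𝒪) ∈ maximalIdeal 𝒪) (b : ℕ → 𝒪)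

theorem S35A_Q_rho_coe (q : ℕ) (σ : GQ) (x : GR_eigen 𝒪 L T b) :
    ((S35A_Q q (GRA_rho e 𝒯 hp b σ) x : GR_eigen 𝒪 L T b) : 𝒪 ⊗[ℤ] L)
      = S35A_Q q (GRA_R e 𝒯 hp σ) (x : 𝒪 ⊗[ℤ] L) := by
  rw [S35A_Q_apply (GRA_rho e 𝒯 hp b σ) q x, S35A_Q_apply (GRA_R e 𝒯 hp σ) q (x : 𝒪 ⊗[ℤ] L)]
  simp only [Submodule.coe_sub, Submodule.coe_smul_of_tower, GRA_rho_coe]

/-- the quartic relation on an eigen-lattice which is spanned by classes on which the relation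
holds at all finite levels. -/
theorem S35A_quartic_abs (q : ℕ) (σ : GQ) (B : Set L)
    (hrel : ∀ z ∈ B, ∀ k : ℕ, S35A_Q q (𝒯.r k σ) ((1 : ZMod (p ^ k)) ⊗ₜ[ℤ] z) = 0)
    (hE : ∀ x ∈ GR_eigen 𝒪 L T b,
      x ∈ Submodule.span 𝒪 {y : 𝒪 ⊗[ℤ] L | ∃ z ∈ B, y = (1 : 𝒪) ⊗ₜ[ℤ] z}) :
    S35A_Q q (GRA_rho e 𝒯 hp b σ) = 0 := by
  refine LinearMap.ext fun x => ?_
  apply Subtype.ext
  rw [S35A_Q_rho_coe, LinearMap.zero_apply, Submodule.coe_zero]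
  have hspan := hE x.1 x.2
  generalize (x : 𝒪 ⊗[ℤ] L) = y at hspan
  induction hspan using Submodule.span_induction with
  | mem y hy =>
    obtain ⟨z, hz, rfl⟩ := hy
    exact S35A_limit e 𝒯 hp q σ z (fun k => hrel z hz k)
  | zero => exact map_zero _
  | add y₁ y₂ _ _ h₁ h₂ => rw [map_add, h₁, h₂, add_zero]
  | smul c y _ h₁ => rw [map_smul, h₁, smul_zero]

theorem S35A_Q_eq {R V : Type*} [CommRing R] [AddCommGroup V] [Module R V] (q : ℕ)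
    (r : Module.End R V) :
    S35A_Q q r = (r * r - ((q : R) ^ 2) • (1 : Module.End R V)) * (r * r - 1) := by
  unfold S35A_Q
  rw [← Nat.cast_pow, ← Nat.cast_pow, Nat.cast_smul_eq_nsmul, nsmul_eq_mul, mul_one]

end abs

section abs2

variable {p N : ℕ} {L : Type} [AddCommGroup L] {T : ℕ → Module.End ℤ L}
  {ι : Type} [Fintype ι] [DecidableEq ι] (e : Basis ι ℤ L) (𝒯 : GR_Tower p N L T)
  {𝒪 : Type} [CommRing 𝒪] [IsDomain 𝒪] [IsDiscreteValuationRing 𝒪]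
  [IsAdicComplete (maximalIdeal 𝒪) 𝒪]
  (hp : (p : 𝒪) ∈ maximalIdeal 𝒪) (b : ℕ → 𝒪)

/-- the quartic relation for the E–S datum `GRA_datum_two`. -/
theorem S35A_datum_bad (S : Finset ℕ) (hpS : p ∈ S)
    (hrank : Module.finrank 𝒪 (GR_eigen 𝒪 L T b) = 2) (q : ℕ) (σ : GQ)
    (h : S35A_Q q (GRA_rho e 𝒯 hp b σ) = 0) :
    ((GRA_datum_two e 𝒯 hp b S hpS hrank).ρ.ρ σ * (GRA_datum_two e 𝒯 hp b S hpS hrank).ρ.ρ σ
        - (((q : 𝒪)) ^ 2) • (1 : Module.End 𝒪 (GRA_datum_two e 𝒯 hp b S hpS hrank).ρ.V))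
      * ((GRA_datum_two e 𝒯 hp b S hpS hrank).ρ.ρ σ * (GRA_datum_two e 𝒯 hp b S hpS hrank).ρ.ρ σ
        - 1) = 0 :=
  (S35A_Q_eq q (GRA_rho e 𝒯 hp b σ)).symm.trans h

end abs2

section datum

variable (N q : ℕ) [NeZero N] [NeZero q] [NeZero (N * q)] [Fact q.Prime]
  (p : ℕ) [hp : Fact p.Prime]

/-- the eigen-lattice of a newform is spanned by `q`-new classes. -/
theorem S35A_eigen_span (hqN : ¬ q ∣ N)
    {g : CuspForm (Gamma0 (N * q)) 2} (hg : g.IsNewform)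
    {𝒪 : Type} [CommRing 𝒪] [IsDomain 𝒪] [CharZero 𝒪] (θ : HeckeAlg →+* 𝒪)
    (hθ : ∀ P : HeckeAlg, θ P = 0 → S41F_charC g P = 0)
    (x : 𝒪 ⊗[ℤ] ↥(parInt (N * q)))
    (hx : x ∈ GR_eigen 𝒪 ↥(parInt (N * q)) (GR_hT (N * q)) (GRD_eig θ)) :
    x ∈ Submodule.span 𝒪 {y : 𝒪 ⊗[ℤ] ↥(parInt (N * q)) |
      ∃ z ∈ (S41D_B N q : Set ↥(parInt (N * q))), y = (1 : 𝒪) ⊗ₜ[ℤ] z} := by
  obtain ⟨hA, hB⟩ := S35A_newform_psi N q hqN hg θ hθ x hx
  have hψ : (S41D_psi N q).baseChange 𝒪 x = 0 := S35A_baseChange_prod _ _ _ hA hB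
  exact S35A_ker_span (S41D_psi N q) _ hψ

/-- the quartic relation on the eigen-lattice of a newform, for an abstract tower. -/
theorem S35A_quartic_of_tower (hqN : ¬ q ∣ N)
    (𝒯 : GR_Tower p (N * q) ↥(parInt (N * q)) (GR_hT (N * q)))
    {g : CuspForm (Gamma0 (N * q)) 2} (hg : g.IsNewform)
    {𝒪 : Type} [CommRing 𝒪] [IsDomain 𝒪] [IsDiscreteValuationRing 𝒪]
    [IsAdicComplete (maximalIdeal 𝒪) 𝒪] [CharZero 𝒪]
    (hp𝒪 : (p : 𝒪) ∈ maximalIdeal 𝒪) (θ : HeckeAlg →+* 𝒪)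
    (hθ : ∀ P : HeckeAlg, θ P = 0 → S41F_charC g P = 0)
    {ι : Type} [Fintype ι] [DecidableEq ι] (e : Basis ι ℤ ↥(parInt (N * q)))
    (σ : GQ)
    (hrel : ∀ z : ↥(parInt (N * q)), z ∈ S41D_B N q → ∀ k : ℕ,
      S35A_Q q (𝒯.r k σ) ((1 : ZMod (p ^ k)) ⊗ₜ[ℤ] z) = 0) :
    S35A_Q q (GRA_rho e 𝒯 hp𝒪 (GRD_eig θ) σ) = 0 :=
  S35A_quartic_abs e 𝒯 hp𝒪 (GRD_eig θ) q σ (S41D_B N q : Set ↥(parInt (N * q))) hrel
    (fun x hx => S35A_eigen_span N q hqN hg θ hθ x hx)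

/-- **the quartic relation on the eigen-lattice of a newform**. -/
theorem S35A_quartic_datum (hqN : ¬ q ∣ N) (hqp : q ≠ p)
    (hK : GR_KappaStmt (N * q))
    (hH : ∀ (ℓ : ℕ) [Fact ℓ.Prime], Nonempty (GR_HeckeES (N * q) ℓ))
    (hU : GR_UnramStmt (N * q)) (hFin : GR_FinStmt (N * q)) (hF : S35A_Frob4K N q)
    {g : CuspForm (Gamma0 (N * q)) 2} (hg : g.IsNewform)
    {𝒪 : Type} [CommRing 𝒪] [IsDomain 𝒪] [IsDiscreteValuationRing 𝒪]
    [IsAdicComplete (maximalIdeal 𝒪) 𝒪] [CharZero 𝒪]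
    (hp𝒪 : (p : 𝒪) ∈ maximalIdeal 𝒪) (θ : HeckeAlg →+* 𝒪)
    (hθ : ∀ P : HeckeAlg, θ P = 0 → S41F_charC g P = 0)
    {ι : Type} [Fintype ι] [DecidableEq ι] (e : Basis ι ℤ ↥(parInt (N * q)))
    (σ : GQ) (hσ : GR_IsFrob q σ) :
    S35A_Q q (GRA_rho e (S35A_tower (N * q) p hK hH hU hFin) hp𝒪 (GRD_eig θ) σ) = 0 :=
  S35A_quartic_of_tower N q p hqN _ hg hp𝒪 θ hθ e σ
    (fun z hz k => S35A_tower_rel N q p hK hH hU hFin hF hqp σ hσ z hz k)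

end datum

end Fermat.Agent.S35
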