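import Mathlib
import Fermat.Agent.GalRep.TowerDone
import Fermat.Agent.S35.Alg
import Fermat.Agent.S35.Quartic
import Fermat.Agent.S35.Coef

/-!
# TRACK 7 (NODE), package ALG35 (helper29): frozen S35 from (FROB4-K)

`S35A_main`: the statement of S35 (`S35A_Stmt`, verbatim) from
`∀ N q, q ∤ N → S35A_Frob4K N q` (the output of NODE).

Assembly: the full eigencharacter of the newform `g`, pushed to a finite extension `O''` of `O'`
(`S35A_exists_coef`), has a rank-2 eigen-lattice in `O'' ⊗ parInt M` (`S35A_rank`), on which the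
limit representation of the tower `S35A_towerDone` satisfies the Eichler–Shimura relations at the
good primes and, at every `q ∥ M`, `q ≠ λ`, the quartic relation (`S35A_quartic_datum`); the
determinant step `S35A_alg` then gives the characteristic polynomials.
-/

set_option autoImplicit false
set_option linter.style.haveILetI false
set_option linter.unusedSectionVars false
open scoped TensorProduct
open CuspForm ModularCurve CongruenceSubgroup ModularFormClass ModularCurve.Period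
open IsLocalRing Polynomial

namespace Fermat.Agent.S35

open Fermat.Agent.S16 Fermat.Agent.GalRep Fermat.Agent.S41

/-- The statement of S35 (verbatim). -/
def S35A_Stmt : Prop :=
  ∀ {M : ℕ} [NeZero M] {g : CuspForm (CongruenceSubgroup.Gamma0 M) 2} (_ : g.IsNewform)
    (lam : ℕ) [Fact lam.Prime]
    (S : Finset ℕ)
    (O' : Type) [CommRing O'] [IsDomain O'] [IsDiscreteValuationRing O']
    [IsAdicComplete (IsLocalRing.maximalIdeal O') O'] [Finite (IsLocalRing.ResidueField O')]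
    [CharZero O'] (_ : (lam : O') ∈ IsLocalRing.maximalIdeal O')
    (chig : CuspForm.heckeAlgebra M 2 (↑S : Set ℕ) →+* ℂ)
    (_ : ∀ (ℓ : ℕ) (hℓ : ℓ.Prime) (hℓM : ¬ ℓ ∣ M) (hℓS : ℓ ∉ (↑S : Set ℕ)),
      chig (CuspForm.heckeAlgebra.T hℓ hℓM hℓS) = ModularFormClass.qCoeff g ℓ)
    (iota : chig.range →+* O')
    (_ : lam ∈ S) (_ : ∀ q : ℕ, q.Prime → q ∣ M → q ∈ S),
    ∃ (O'' : Type) (_ : CommRing O'') (_ : IsDomain O'') (_ : IsDiscreteValuationRing O'')
      (_ : IsAdicComplete (IsLocalRing.maximalIdeal O'') O'') (_ : Finite (IsLocalRing.ResidueField O''))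
      (_ : CharZero O'') (_ : Algebra O' O'') (_ : Module.Finite O' O'') (_ : IsLocalHom (algebraMap O' O'')),
      Function.Injective (algebraMap O' O'') ∧
      ∃ ρ : GaloisRepAdic O'',
        (∀ (ℓ : ℕ) (hℓ : ℓ.Prime) (hℓM : ¬ ℓ ∣ M) (hℓS : ℓ ∉ (↑S : Set ℕ)),
          ∀ A : ValuationSubring (AlgebraicClosure ℚ), A.LiesOverPrime ℓ →
            ∀ σ : AlgebraicClosure ℚ ≃ₐ[ℚ] AlgebraicClosure ℚ, A.IsFrobeniusAt σ ℓ →
              LinearMap.charpoly (ρ.ρ σ) =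
                X ^ 2 - C (algebraMap O' O'' ((iota.comp chig.rangeRestrict) (CuspForm.heckeAlgebra.T hℓ hℓM hℓS))) * X
                  + C ((ℓ : O''))) ∧
        (∀ q : ℕ, q.Prime → q ≠ lam → q ∣ M → ¬ q ^ 2 ∣ M →
          ∀ A : ValuationSubring (AlgebraicClosure ℚ), A.LiesOverPrime q →
            ∀ σ : AlgebraicClosure ℚ ≃ₐ[ℚ] AlgebraicClosure ℚ, A.IsFrobeniusAt σ q →
              LinearMap.charpoly (ρ.ρ σ) = X ^ 2 - C ((q : O'') + 1) * X + C ((q : O'')) ∨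
              LinearMap.charpoly (ρ.ρ σ) = X ^ 2 + C ((q : O'') + 1) * X + C ((q : O'')))

/-- the unconditional tower, as a definition. -/
noncomputable def S35A_towerDone (M : ℕ) [NeZero M] (p : ℕ) [Fact p.Prime] :
    GR_Tower p M ↥(parInt M) (GR_hT M) :=
  S35A_tower M p (KMF_kappa_final M) (fun ℓ _ => GRHX_hecke_all M ℓ)
    (ES_unram GRT3_s18 GRT3_ri M) (GR_fin M (KMF_kappa_final M))

/-- the quartic relation at a prime `q ∥ M`, `q ≠ p`, on the eigen-lattice of a newform. -/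
theorem S35A_bad
    (hFrob : ∀ (N q : ℕ) [NeZero N] [NeZero q] [NeZero (N * q)] [Fact q.Prime],
      ¬ q ∣ N → S35A_Frob4K N q)
    (M : ℕ) [NeZero M] (p : ℕ) [Fact p.Prime]
    {g : CuspForm (Gamma0 M) 2} (hg : g.IsNewform)
    {𝒪 : Type} [CommRing 𝒪] [IsDomain 𝒪] [IsDiscreteValuationRing 𝒪]
    [IsAdicComplete (maximalIdeal 𝒪) 𝒪] [CharZero 𝒪]
    (hp𝒪 : (p : 𝒪) ∈ maximalIdeal 𝒪) (θ : HeckeAlg →+* 𝒪)
    (hθ : ∀ P : HeckeAlg, θ P = 0 → S41F_charC g P = 0)
    {ι : Type} [Fintype ι] [DecidableEq ι] (e : Module.Basis ι ℤ ↥(parInt M))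
    (q : ℕ) (hq : q.Prime) (hqp : q ≠ p) (hqM : q ∣ M) (hq2 : ¬ q ^ 2 ∣ M)
    (σ : GQ) (hσ : GR_IsFrob q σ) :
    S35A_Q q (GRA_rho e (S35A_towerDone M p) hp𝒪 (GRD_eig θ) σ) = 0 := by
  obtain ⟨N, rfl⟩ : ∃ N, M = N * q := ⟨M / q, (Nat.div_mul_cancel hqM).symm⟩
  have hN0 : N ≠ 0 := fun h => (NeZero.ne (N * q)) (by rw [h, zero_mul])
  haveI : NeZero N := ⟨hN0⟩
  haveI : NeZero q := ⟨hq.ne_zero⟩
  haveI : Fact q.Prime := ⟨hq⟩
  have hqN : ¬ q ∣ N := by
    intro h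
    apply hq2
    rw [sq]
    exact Nat.mul_dvd_mul_right h q
  exact S35A_quartic_datum N q p hqN hqp _ _ _ _ (hFrob N q hqN) hg hp𝒪 θ hθ e σ hσ

/-- **ALG35**: the statement of S35 from (FROB4-K). -/
theorem S35A_main
    (hFrob : ∀ (N q : ℕ) [NeZero N] [NeZero q] [NeZero (N * q)] [Fact q.Prime],
      ¬ q ∣ N → S35A_Frob4K N q) : S35A_Stmt := by
  intro M _ g hg lam _ S O' _ _ _ _ _ _ hlamO' chig hchig iota hlamS hMS
  have hgn := hg.1
  haveI := finite_parInt M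
  haveI := free_parInt M
  have hMS' : ∀ q : ℕ, q.Prime → q ∣ M → q ∈ (↑S : Set ℕ) := fun q hq hqM =>
    Finset.mem_coe.mpr (hMS q hq hqM)
  have hle := S35A_range_le (↑S : Set ℕ) hMS' chig hchig
  haveI : Module.Finite ℤ (S41F_charC g).range := S35A_range_finite hgn
  obtain ⟨O'', i1, i2, i3, i4, i5, i6, i7, i8, i9, hinj, Φ, hΦ, hΦι⟩ :=
    S35A_exists_coef O' chig.range (S41F_charC g).range hle iota
  have hp'' : (lam : O'') ∈ IsLocalRing.maximalIdeal O'' := by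
    have h1 : algebraMap O' O'' (lam : O') ∈ IsLocalRing.maximalIdeal O'' := by
      rw [IsLocalRing.mem_maximalIdeal, mem_nonunits_iff]
      intro hu
      have hu' : IsUnit (lam : O') := (isUnit_map_iff (algebraMap O' O'') _).mp hu
      exact (IsLocalRing.mem_maximalIdeal _).mp hlamO' hu'
    simpa using h1
  obtain ⟨c⟩ := GR_cycStmt lam O'' hp''
  have hθ : ∀ P : HeckeAlg, (Φ.comp (S41F_charC g).rangeRestrict) P = 0 → S41F_charC g P = 0 := by
    intro P hP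
    have h1 : (S41F_charC g).rangeRestrict P = 0 := hΦ (by rw [map_zero]; exact hP)
    exact congrArg Subtype.val h1
  have hrank := S35A_rank hgn Φ hΦ
  classical
  have hbad : ∀ q : ℕ, q.Prime → q ≠ lam → q ∣ M → ¬ q ^ 2 ∣ M → ∀ σ : GQ, GR_IsFrob q σ →
      ((GRA_datum_two (Module.Free.chooseBasis ℤ ↥(parInt M)) (S35A_towerDone M lam) hp''
          (GRD_eig (Φ.comp (S41F_charC g).rangeRestrict)) S hlamS hrank).ρ.ρ σ
        * (GRA_datum_two (Module.Free.chooseBasis ℤ ↥(parInt M)) (S35A_towerDone M lam) hp''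
          (GRD_eig (Φ.comp (S41F_charC g).rangeRestrict)) S hlamS hrank).ρ.ρ σ
        - (((q : O'')) ^ 2) • (1 : Module.End O'' _))
        * ((GRA_datum_two (Module.Free.chooseBasis ℤ ↥(parInt M)) (S35A_towerDone M lam) hp''
          (GRD_eig (Φ.comp (S41F_charC g).rangeRestrict)) S hlamS hrank).ρ.ρ σ
        * (GRA_datum_two (Module.Free.chooseBasis ℤ ↥(parInt M)) (S35A_towerDone M lam) hp''
          (GRD_eig (Φ.comp (S41F_charC g).rangeRestrict)) S hlamS hrank).ρ.ρ σ - 1) = 0 := by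
    intro q hq hqp hqM hq2 σ hσ
    exact S35A_datum_bad _ _ hp'' _ S hlamS hrank q σ
      (S35A_bad hFrob M lam hg hp'' (Φ.comp (S41F_charC g).rangeRestrict) hθ
        (Module.Free.chooseBasis ℤ ↥(parInt M)) q hq hqp hqM hq2 σ hσ)
  obtain ⟨ρ, hgood, -, hb⟩ := S35A_alg hlamS GR_ds c
    (GRA_datum_two (Module.Free.chooseBasis ℤ ↥(parInt M)) (S35A_towerDone M lam) hp''
      (GRD_eig (Φ.comp (S41F_charC g).rangeRestrict)) S hlamS hrank) hbad
  refine ⟨O'', i1, i2, i3, i4, i5, i6, i7, i8, i9, hinj, ρ, ?_, ?_⟩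
  · intro ℓ hℓ hℓM hℓS A hA σ hσ
    rw [hgood ℓ hℓ hℓM (by simpa using hℓS) σ ⟨A, hA, hσ⟩, GRD_eig_prime _ hℓ]
    have h1 : (S41F_charC g).rangeRestrict (heckeGen ⟨ℓ, hℓ⟩)
        = Subring.inclusion hle (chig.rangeRestrict (CuspForm.heckeAlgebra.T hℓ hℓM hℓS)) := by
      apply Subtype.ext
      exact (S41F_charC_heckeGen g (⟨ℓ, hℓ⟩ : Nat.Primes)).trans (hchig ℓ hℓ hℓM hℓS).symm
    have h2 : (Φ.comp (S41F_charC g).rangeRestrict) (heckeGen ⟨ℓ, hℓ⟩)
        = algebraMap O' O'' ((iota.comp chig.rangeRestrict)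
            (CuspForm.heckeAlgebra.T hℓ hℓM hℓS)) := by
      rw [RingHom.comp_apply, h1, hΦι]
      rfl
    rw [h2]
  · intro q hq hqp hqM hq2 A hA σ hσ
    exact hb q hq hqp hqM hq2 σ ⟨A, hA, hσ⟩

end Fermat.Agent.S35
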