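import Fermat.Agent.S34.RedU5
import Fermat.Agent.S35.Main

/-!
# TRACK 7 (NODE), package ALG35 (helper29): frozen S35 from the two NODE targets

`S35A_of_targets`: the statement of S35 from (VAL-HGEN) `S34M_HGen` and (K-sig2) `S34M_KSig2`
at all levels `M * q`, `q ∤ M`  (ASM `S34U_frob4K` + ALG35 `S35A_main`).
-/

set_option autoImplicit false

namespace Fermat.Agent.S35

open Fermat.Agent.S34

/-- **S35 from the two targets** (VAL-HGEN) and (K-sig2). -/
theorem S35A_of_targets
    (hgen : ∀ (M q : ℕ) [NeZero (M * q)], q.Prime → ¬ q ∣ M → S34M_HGen M q)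
    (hK : ∀ (M q : ℕ) [NeZero (M * q)] (hq : q.Prime) (hqM : ¬ q ∣ M), S34M_KSig2 M q hq hqM) :
    S35A_Stmt :=
  S35A_main (fun N q _ _ _ _ hqN =>
    S34U_frob4K N q Fact.out hqN (hgen N q Fact.out hqN) (hK N q Fact.out hqN))

end Fermat.Agent.S35
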